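import Fermat.Agent.ECFrob.CharpolyRat
import Fermat.Agent.GalRep.Cyclo
import Fermat.Prelude.Def_FreyPackage_DetCyclotomic

/-!
# Determinant of the mod `p` representation of an elliptic curve over `ℚ`; oddness
-/

set_option autoImplicit false
set_option linter.style.haveILetI false

namespace Fermat.Agent.ECFrob

open Polynomial WeierstrassCurve WeierstrassCurve.Affine WeierstrassCurve.Affine.Point
open Fermat.Agent.Torsion Fermat.Agent.ECRed

section

variable {W : WeierstrassCurve ℤ}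

/-- The mod `n` Galois representation of a curve over `ℤ`. -/
noncomputable abbrev rho (W : WeierstrassCurve ℤ) (n : ℕ) :
    (AlgebraicClosure ℚ ≃ₐ[ℚ] AlgebraicClosure ℚ) →* Module.End (ZMod n)
      (Submodule.torsionBy ℤ ((W.map (Int.castRingHom ℚ))⁄(AlgebraicClosure ℚ)).Point n) :=
  galoisRepModuleEnd (S := ℚ) (K := AlgebraicClosure ℚ) (W.map (Int.castRingHom ℚ)) n

lemma map_Δ_ne_zero (hΔ : W.Δ ≠ 0) : (W.map (Int.castRingHom ℚ)).Δ ≠ 0 := by
  rw [WeierstrassCurve.map_Δ]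
  simpa using hΔ

lemma finite_rat (hΔ : W.Δ ≠ 0) {n : ℕ} (hn : n ≠ 0) :
    Finite (Submodule.torsionBy ℤ
      ((W.map (Int.castRingHom ℚ))⁄(AlgebraicClosure ℚ)).Point n) :=
  finite_torsionBy_rat (map_Δ_ne_zero hΔ) hn

lemma finrank_rat (hΔ : W.Δ ≠ 0) {p : ℕ} [hp : Fact p.Prime] :
    Module.finrank (ZMod p) (Submodule.torsionBy ℤ
      ((W.map (Int.castRingHom ℚ))⁄(AlgebraicClosure ℚ)).Point p) = 2 := by
  have hcard := card_torsionBy_rat (map_Δ_ne_zero hΔ) hp.out.ne_zero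
  haveI := finite_rat hΔ hp.out.ne_zero
  have h := Module.natCard_eq_pow_finrank (K := ZMod p) (V := Submodule.torsionBy ℤ
    ((W.map (Int.castRingHom ℚ))⁄(AlgebraicClosure ℚ)).Point p)
  rw [hcard, Nat.card_zmod] at h
  exact (Nat.pow_right_injective hp.out.two_le h).symm

/-- `E[p]` is unramified at primes of good reduction different from `p`. -/
theorem rho_inertia {ℓ : ℕ} [hℓ : Fact ℓ.Prime]
    (hW : W.IsGoodPrimeFor ℓ) {A : ValuationSubring (AlgebraicClosure ℚ)}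
    (hA : A.LiesOverPrime ℓ) {σ : AlgebraicClosure ℚ ≃ₐ[ℚ] AlgebraicClosure ℚ}
    (hσ : σ ∈ A.inertiaSubgroupIn ℚ) {n : ℕ} (hn : ¬ ℓ ∣ n) : rho W n σ = 1 := by
  classical
  haveI := charP_residueField_of_liesOver hℓ.out hA
  letI : Algebra (ZMod ℓ) (IsLocalRing.ResidueField A) :=
    ZMod.algebra (IsLocalRing.ResidueField A) ℓ
  obtain ⟨e, -, he⟩ := exists_redTorsionMod hW hA (n := n) hn
  refine LinearMap.ext fun P => ?_
  rw [galoisRepModuleEnd_apply, Module.End.one_apply]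
  exact e.injective (he σ hσ P)

/-- The determinant of Frobenius. -/
theorem det_rho_frobenius {ℓ : ℕ} [hℓ : Fact ℓ.Prime]
    (hW : W.IsGoodPrimeFor ℓ) {A : ValuationSubring (AlgebraicClosure ℚ)}
    (hA : A.LiesOverPrime ℓ) {σ : AlgebraicClosure ℚ ≃ₐ[ℚ] AlgebraicClosure ℚ}
    (hσ : A.IsFrobeniusAt σ ℓ) {p : ℕ} [hp : Fact p.Prime] (hpℓ : ℓ ≠ p) :
    LinearMap.det (rho W p σ) = (ℓ : ZMod p) := by
  have hΔ : W.Δ ≠ 0 := fun h => hW (by rw [h]; exact dvd_zero _)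
  haveI := finite_rat hΔ hp.out.ne_zero
  haveI : Module.Finite (ZMod p)
      (Submodule.torsionBy ℤ ((W.map (Int.castRingHom ℚ))⁄(AlgebraicClosure ℚ)).Point p) :=
    Module.Finite.of_finite
  rw [LinearMap.det_eq_sign_charpoly_coeff, charpoly_galoisRep hW hA hσ hpℓ, finrank_rat hΔ]
  simp [coeff_X, coeff_C]

/-- The trace of Frobenius. -/
theorem trace_rho_frobenius {ℓ : ℕ} [hℓ : Fact ℓ.Prime]
    (hW : W.IsGoodPrimeFor ℓ) {A : ValuationSubring (AlgebraicClosure ℚ)}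
    (hA : A.LiesOverPrime ℓ) {σ : AlgebraicClosure ℚ ≃ₐ[ℚ] AlgebraicClosure ℚ}
    (hσ : A.IsFrobeniusAt σ ℓ) {p : ℕ} [hp : Fact p.Prime] (hpℓ : ℓ ≠ p) :
    LinearMap.trace (ZMod p) _ (rho W p σ) = (W.apOfModel ℓ : ZMod p) := by
  have hΔ : W.Δ ≠ 0 := fun h => hW (by rw [h]; exact dvd_zero _)
  haveI := finite_rat hΔ hp.out.ne_zero
  haveI : Module.Finite (ZMod p)
      (Submodule.torsionBy ℤ ((W.map (Int.castRingHom ℚ))⁄(AlgebraicClosure ℚ)).Point p) :=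
    Module.Finite.of_finite
  let b := Module.finBasisOfFinrankEq _ _ (finrank_rat hΔ (p := p))
  have h := charpoly_galoisRep hW hA hσ hpℓ
  rw [← LinearMap.charpoly_toMatrix _ b, Matrix.charpoly_fin_two] at h
  rw [LinearMap.trace_eq_matrix_trace _ b]
  have h1 := congrArg (fun f => coeff f 1) h
  simp [coeff_X, coeff_C, coeff_X_pow] at h1
  simpa using h1

end

section Cyc

variable {W : WeierstrassCurve ℤ} (hΔ : W.Δ ≠ 0)

/-- The cyclotomic exponent modulo `p`. -/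
noncomputable def cycMod (p : ℕ) [Fact p.Prime] :
    (AlgebraicClosure ℚ ≃ₐ[ℚ] AlgebraicClosure ℚ) →* ZMod p where
  toFun σ := haveI : NeZero p := ⟨(Fact.out : p.Prime).ne_zero⟩
    ((modularCyclotomicCharacter (AlgebraicClosure ℚ) (ExtCitation.card_rootsOfUnity_eq_self p)
      (σ : AlgebraicClosure ℚ ≃+* AlgebraicClosure ℚ) : (ZMod p)ˣ) : ZMod p)
  map_one' := by
    haveI : NeZero p := ⟨(Fact.out : p.Prime).ne_zero⟩
    exact congrArg Units.val (_root_.map_one (modularCyclotomicCharacter (AlgebraicClosure ℚ)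
      (ExtCitation.card_rootsOfUnity_eq_self p)))
  map_mul' σ τ := by
    haveI : NeZero p := ⟨(Fact.out : p.Prime).ne_zero⟩
    exact congrArg Units.val (_root_.map_mul (modularCyclotomicCharacter (AlgebraicClosure ℚ)
      (ExtCitation.card_rootsOfUnity_eq_self p)) (σ : AlgebraicClosure ℚ ≃+* AlgebraicClosure ℚ)
      (τ : AlgebraicClosure ℚ ≃+* AlgebraicClosure ℚ))

lemma cycMod_spec (p : ℕ) [Fact p.Prime] (σ : AlgebraicClosure ℚ ≃ₐ[ℚ] AlgebraicClosure ℚ)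
    {ζ : AlgebraicClosure ℚ} (hζ : ζ ^ p = 1) : σ ζ = ζ ^ (cycMod p σ).val := by
  haveI : NeZero p := ⟨(Fact.out : p.Prime).ne_zero⟩
  have hu : IsUnit ζ := IsUnit.of_pow_eq_one hζ (Fact.out : p.Prime).ne_zero
  have := modularCyclotomicCharacter.spec (AlgebraicClosure ℚ)
    (ExtCitation.card_rootsOfUnity_eq_self p) (σ : AlgebraicClosure ℚ ≃+* AlgebraicClosure ℚ)
    (t := hu.unit) (by rw [mem_rootsOfUnity]; exact Units.ext (by simpa using hζ))
  exact this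

lemma cycMod_unique {p : ℕ} [hp : Fact p.Prime]
    {σ : AlgebraicClosure ℚ ≃ₐ[ℚ] AlgebraicClosure ℚ}
    {ζ : AlgebraicClosure ℚ} (hζ : IsPrimitiveRoot ζ p) {c : ℕ} (h : σ ζ = ζ ^ c) :
    cycMod p σ = (c : ZMod p) := by
  haveI : NeZero p := ⟨(Fact.out : p.Prime).ne_zero⟩
  rw [cycMod_spec p σ hζ.pow_eq_one, ← Nat.mod_add_div c p, pow_add, pow_mul, hζ.pow_eq_one,
    one_pow, mul_one] at h
  have h2 := hζ.pow_inj (ZMod.val_lt _) (Nat.mod_lt _ hp.out.pos) h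
  rw [← ZMod.natCast_zmod_val (cycMod p σ), h2, ZMod.natCast_mod]

lemma exists_primitiveRoot (p : ℕ) [hp : Fact p.Prime] :
    ∃ ζ : AlgebraicClosure ℚ, IsPrimitiveRoot ζ p := by
  haveI : NeZero ((p : ℕ) : AlgebraicClosure ℚ) := ⟨by exact_mod_cast hp.out.ne_zero⟩
  exact HasEnoughRootsOfUnity.exists_primitiveRoot (AlgebraicClosure ℚ) p

lemma cycMod_frobenius {ℓ : ℕ} (hℓ : ℓ.Prime) {A : ValuationSubring (AlgebraicClosure ℚ)}
    (hA : A.LiesOverPrime ℓ) {σ : AlgebraicClosure ℚ ≃ₐ[ℚ] AlgebraicClosure ℚ}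
    (hσ : A.IsFrobeniusAt σ ℓ) {p : ℕ} [hp : Fact p.Prime] (hpℓ : ℓ ≠ p) :
    cycMod p σ = (ℓ : ZMod p) := by
  obtain ⟨ζ, hζ⟩ := exists_primitiveRoot p
  exact cycMod_unique hζ (GalRep.frobenius_rootOfUnity hA ((Nat.coprime_primes hℓ hp.out).mpr hpℓ)
    hp.out.ne_zero hσ hζ.pow_eq_one)

include hΔ in
/-- **The determinant of `E[p]` is the cyclotomic character.** -/
theorem det_rho {p : ℕ} [hp : Fact p.Prime] (σ : AlgebraicClosure ℚ ≃ₐ[ℚ] AlgebraicClosure ℚ) :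
    LinearMap.det (rho W p σ) = cycMod p σ := by
  obtain ⟨L₁, hL₁, h₁⟩ := galoisRep_factors (map_Δ_ne_zero hΔ) hp.out.ne_zero
  obtain ⟨ζ, hζ⟩ := exists_primitiveRoot p
  haveI := hL₁
  haveI : FiniteDimensional ℚ (IntermediateField.adjoin ℚ {ζ}) :=
    IntermediateField.adjoin.finiteDimensional
      ((AlgebraicClosure.isAlgebraic ℚ).isAlgebraic ζ).isIntegral
  haveI : FiniteDimensional ℚ (L₁ ⊔ IntermediateField.adjoin ℚ {ζ} : IntermediateField ℚ _) :=
    IntermediateField.finiteDimensional_sup _ _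
  refine FrobDensity.eq_of_frobenius (fun σ => LinearMap.det (rho W p σ)) (fun σ => cycMod p σ)
    (L₁ ⊔ IntermediateField.adjoin ℚ {ζ}) ?_ ?_ ?_ ({ℓ | (ℓ : ℤ) ∣ W.Δ} ∪ {p}) ?_ ?_ σ
  · intro σ τ h
    have h2 : rho W p (τ⁻¹ * σ) = 1 := by
      apply h₁
      intro x hx
      show τ.symm (σ x) = x
      rw [h x (le_sup_left (a := L₁) hx), τ.symm_apply_apply]
    have h3 : rho W p σ = rho W p τ := by
      rw [_root_.map_mul] at h2
      have h4 : rho W p τ * rho W p τ⁻¹ = 1 := by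
        rw [← _root_.map_mul, mul_inv_cancel, _root_.map_one]
      calc rho W p σ = (rho W p τ * rho W p τ⁻¹) * rho W p σ := by rw [h4, one_mul]
        _ = rho W p τ := by rw [mul_assoc, h2, mul_one]
    simp only [h3]
  · intro σ τ h
    have hmem : ζ ∈ L₁ ⊔ IntermediateField.adjoin ℚ {ζ} :=
      le_sup_right (a := L₁) (IntermediateField.mem_adjoin_simple_self ℚ ζ)
    have h2 : σ ζ = ζ ^ (cycMod p τ).val := by
      rw [h ζ hmem, cycMod_spec p τ hζ.pow_eq_one]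
    have h3 := cycMod_unique hζ h2
    haveI : NeZero p := ⟨(Fact.out : p.Prime).ne_zero⟩
    simp only [h3, ZMod.natCast_zmod_val]
  · intro φ k h
    simp only [_root_.map_pow] at h ⊢
    rw [h]
  · refine Set.Finite.union ?_ (Set.finite_singleton p)
    refine (Finset.finite_toSet (W.Δ.natAbs.divisors)).subset fun ℓ hℓ => ?_
    rw [Finset.mem_coe, Nat.mem_divisors]
    exact ⟨Int.natCast_dvd.mp hℓ, Int.natAbs_ne_zero.mpr hΔ⟩
  · intro ℓ hℓ hℓS A hA φ hφ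
    simp only [Set.mem_union, Set.mem_ofPred_eq, Set.mem_singleton_iff, not_or] at hℓS
    haveI : Fact ℓ.Prime := ⟨hℓ⟩
    exact (det_rho_frobenius hℓS.1 hA hφ hℓS.2).trans (cycMod_frobenius hℓ hA hφ hℓS.2).symm

end Cyc

end Fermat.Agent.ECFrob
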