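import Fermat.Agent.ECFrob.DetCyc

/-!
# Involutions of algebraically closed fields act by `-1` on roots of unity; oddness of `E[p]`
-/

set_option autoImplicit false
set_option linter.style.haveILetI false

namespace Fermat.Agent.ECFrob

section Involution

variable {K : Type*} [Field K] [IsAlgClosed K] {c : K →+* K}

lemma involution_I (hc : ∀ x, c (c x) = x) (h2 : (2 : K) ≠ 0) {x₀ : K} (hx₀ : c x₀ ≠ x₀) {i : K}
    (hi : i ^ 2 = -1) : c i = -i := by
  have h1 : c i = i ∨ c i = -i := by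
    apply sq_eq_sq_iff_eq_or_eq_neg.mp
    rw [← map_pow, hi, map_neg, map_one]
  refine h1.resolve_left fun hci => ?_
  set d := x₀ - c x₀ with hd
  have hd0 : d ≠ 0 := sub_ne_zero.mpr (Ne.symm hx₀)
  have hcd : c d = -d := by rw [hd, map_sub, hc]; ring
  obtain ⟨b, hb⟩ := IsAlgClosed.exists_pow_nat_eq d (n := 2) two_pos
  set n := b * c b with hn
  have hcn : c n = n := by rw [hn, map_mul, hc, mul_comm]
  have hn2 : n ^ 2 = (i * d) ^ 2 := by
    rw [hn, mul_pow, ← map_pow, hb, hcd, mul_pow, hi]; ring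
  have h3 : c n = -n := by
    rcases sq_eq_sq_iff_eq_or_eq_neg.mp hn2 with h | h
    · rw [h, map_mul, hci, hcd]; ring
    · rw [h, map_neg, map_mul, hci, hcd]; ring
  have h4 : n = 0 := by
    have : 2 * n = 0 := by linear_combination hcn.symm.trans h3
    exact (mul_eq_zero.mp this).resolve_left h2
  have hb0 : b ≠ 0 := by
    rintro rfl
    rw [zero_pow two_ne_zero] at hb
    exact hd0 hb.symm
  rcases mul_eq_zero.mp h4 with h | h
  · exact hb0 h
  · exact hb0 ((map_eq_zero c).mp h)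

lemma involution_sq_add_sq (hc : ∀ x, c (c x) = x) (h2 : (2 : K) ≠ 0) {x₀ : K} (hx₀ : c x₀ ≠ x₀)
    {x y : K} (hx : c x = x) (hy : c y = y) : ∃ z, c z = z ∧ x ^ 2 + y ^ 2 = z ^ 2 := by
  obtain ⟨i, hi⟩ := IsAlgClosed.exists_pow_nat_eq (-1 : K) (n := 2) two_pos
  have hci := involution_I hc h2 hx₀ hi
  obtain ⟨w, hw⟩ := IsAlgClosed.exists_pow_nat_eq (x + i * y) (n := 2) two_pos
  refine ⟨w * c w, by rw [map_mul, hc, mul_comm], ?_⟩
  rw [mul_pow, ← map_pow, hw, map_add, map_mul, hx, hy, hci]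
  linear_combination y ^ 2 * hi

lemma involution_root (hc : ∀ x, c (c x) = x) (h2 : (2 : K) ≠ 0) {x₀ : K} (hx₀ : c x₀ ≠ x₀)
    {p : ℕ} (hp : p.Prime) (hp2 : p ≠ 2) {ζ : K} (hζ : IsPrimitiveRoot ζ p) : c ζ ≠ ζ := by
  intro h
  obtain ⟨m, hm⟩ : ∃ m, p = 2 * m + 1 := hp.odd_of_ne_two hp2
  have hsq : ∀ j : ℕ, ∃ u, c u = u ∧ ζ ^ j = u ^ 2 := by
    intro j
    refine ⟨ζ ^ (j * (m + 1)), by rw [map_pow, h], ?_⟩
    rw [← pow_mul]
    have e : j * (m + 1) * 2 = j + p * j := by rw [hm]; ring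
    rw [e, pow_add, pow_mul, hζ.pow_eq_one, one_pow, mul_one]
  have hsum : ∀ n : ℕ, ∃ z, c z = z ∧ ∑ j ∈ Finset.range (n + 1), ζ ^ j = z ^ 2 := by
    intro n
    induction n with
    | zero => exact ⟨1, map_one c, by simp⟩
    | succ n ih =>
      obtain ⟨z, hz, hz2⟩ := ih
      obtain ⟨u, hu, hu2⟩ := hsq (n + 1)
      rw [Finset.sum_range_succ, hz2, hu2]
      exact involution_sq_add_sq hc h2 hx₀ hz hu
  obtain ⟨q, hq⟩ : ∃ q, p = q + 2 := ⟨p - 2, by have := hp.two_le; omega⟩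
  obtain ⟨z, hz, hz2⟩ := hsum q
  obtain ⟨u, hu, hu2⟩ := hsq (q + 1)
  have h0 := hζ.geom_sum_eq_zero hp.one_lt
  rw [hq, Finset.sum_range_succ, hz2, hu2] at h0
  have hu0 : u ≠ 0 := by
    rintro rfl
    rw [zero_pow two_ne_zero] at hu2
    exact pow_ne_zero _ (hζ.ne_zero hp.ne_zero) hu2
  have hi : (z / u) ^ 2 = -1 := by
    rw [div_pow, div_eq_iff (pow_ne_zero 2 hu0)]
    linear_combination h0
  have h5 := involution_I hc h2 hx₀ hi
  rw [map_div₀, hz, hu] at h5
  have h6 : z / u = 0 := by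
    have : 2 * (z / u) = 0 := by linear_combination h5
    exact (mul_eq_zero.mp this).resolve_left h2
  rw [h6, zero_pow two_ne_zero] at hi
  exact one_ne_zero (neg_eq_zero.mp hi.symm)

end Involution

/-- The cyclotomic character at an involution. -/
theorem cycMod_involution {p : ℕ} [hp : Fact p.Prime]
    {c : AlgebraicClosure ℚ ≃ₐ[ℚ] AlgebraicClosure ℚ} (hc : c * c = 1) (hc1 : c ≠ 1) :
    cycMod p c = -1 := by
  have hsq : cycMod p c * cycMod p c = 1 := by
    rw [← map_mul, hc, map_one]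
  rcases mul_self_eq_one_iff.mp hsq with h | h
  · by_cases hp2 : p = 2
    · subst hp2
      rw [h]
      have h2 : (2 : ZMod 2) = 0 := by exact_mod_cast ZMod.natCast_self 2
      linear_combination h2
    exfalso
    obtain ⟨ζ, hζ⟩ := exists_primitiveRoot p
    have hcc : ∀ x, c (c x) = x := fun x => by
      have := congrArg (fun f : AlgebraicClosure ℚ ≃ₐ[ℚ] AlgebraicClosure ℚ => f x) hc
      exact this
    obtain ⟨x₀, hx₀⟩ : ∃ x, c x ≠ x := by
      by_contra hne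
      push Not at hne
      exact hc1 (AlgEquiv.ext hne)
    have h1 := involution_root (c := (c : AlgebraicClosure ℚ →+* AlgebraicClosure ℚ)) hcc
      two_ne_zero hx₀ hp.out hp2 hζ
    apply h1
    have h2 := cycMod_spec p c hζ.pow_eq_one
    haveI : Fact (1 < p) := ⟨hp.out.one_lt⟩
    rw [h, ZMod.val_one, pow_one] at h2
    exact h2
  · exact h

open WeierstrassCurve in
/-- `E[p]` is odd. -/
theorem det_rho_involution {W : WeierstrassCurve ℤ} (hΔ : W.Δ ≠ 0) {p : ℕ} [Fact p.Prime]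
    {c : AlgebraicClosure ℚ ≃ₐ[ℚ] AlgebraicClosure ℚ} (hc : c * c = 1) (hc1 : c ≠ 1) :
    LinearMap.det (rho W p c) = -1 := by
  rw [det_rho hΔ, cycMod_involution hc hc1]

end Fermat.Agent.ECFrob
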