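import Fermat.Agent.ECFrob.Generic

/-!
# Frobenius on points and heights
-/

set_option autoImplicit false

namespace Fermat.Agent.ECFrob

open Polynomial WeierstrassCurve WeierstrassCurve.Affine WeierstrassCurve.Affine.Point

section Frob

variable {k : Type*} [Field k] [Fintype k] (W : Affine k) (L : Type*) [Field L] [DecidableEq L]
  [Algebra k L]

/-- The `q`-power Frobenius on points over an extension `L` of the finite field `k`. -/
noncomputable def frob : (W⁄L).Point →+ (W⁄L).Point :=
  Point.map (W' := W) (S := k) (FiniteField.frobeniusAlgHom k L)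

variable {W L}

lemma frob_some {x y : L} (h : (W⁄L).Nonsingular x y) :
    frob W L (some x y h) = some (FiniteField.frobeniusAlgHom k L x)
      (FiniteField.frobeniusAlgHom k L y)
      ((W.baseChange_nonsingular (f := FiniteField.frobeniusAlgHom k L)
        (FiniteField.frobeniusAlgHom k L).injective ..).mpr h) := rfl

omit [DecidableEq L] in
lemma frobeniusAlgHom_apply (x : L) :
    FiniteField.frobeniusAlgHom k L x = x ^ Fintype.card k := rfl

lemma xRep_frob (Q : (W⁄L).Point) (i : Fin 2) :
    (frob W L Q).xRep i = Q.xRep i ^ Fintype.card k := by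
  rcases Q with _ | ⟨x, y, h⟩
  · rw [← zero_def, _root_.map_zero]
    fin_cases i
    · simp
    · simp [Fintype.card_ne_zero]
  · rw [frob_some]
    fin_cases i
    · simp [frobeniusAlgHom_apply]
    · simp

end Frob

namespace Generic

variable {k : Type*} [Field k] [Fintype k] {W : Affine k} {K L : Type*} [Field K] [Field L]
  [Algebra k K] [Algebra k L] [Algebra K L] [IsScalarTower k K L] [DecidableEq L]
  {G : Generic W K L}

lemma frob_mem_odd {Q : (W⁄L).Point} (hQ : Q ∈ G.odd) : frob W L Q ∈ G.odd := by
  rw [mem_odd] at *
  rw [← map_neg, ← hQ]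
  rcases Q with _ | ⟨x, y, h⟩
  · rw [← zero_def, _root_.map_zero, _root_.map_zero, _root_.map_zero]
  · rw [frob_some, conj, Point.map_some, Point.map_some, frob_some]
    simp only [some.injEq, frobeniusAlgHom_apply]
    exact ⟨map_pow G.ι x _, map_pow G.ι y _⟩

lemma IsRep.frob {Q : (W⁄L).Point} {v : Fin 2 → K[X]} {d : ℕ} (h : G.IsRep Q v d) :
    G.IsRep (frob W L Q) (fun i => v i ^ Fintype.card k) (Fintype.card k * d) := by
  refine ⟨h.1.pow Fintype.card_ne_zero, ?_⟩
  simp only [map_pow, xRep_frob, ← mul_pow]
  rw [h.2]

lemma ht_frob [IsAlgClosed K] {Q : (W⁄L).Point} (hQ : Q ∈ G.odd) :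
    G.ht (ECFrob.frob W L Q) = Fintype.card k * G.ht Q := by
  obtain ⟨v, h⟩ := exists_isRep_ht hQ
  exact ht_eq h.frob

end Generic

section Quadratic

/-- A function satisfying the parallelogram law. -/
structure Parallelogram {A : Type*} [AddCommGroup A] (h : A → ℤ) : Prop where
  law : ∀ x y, h (x + y) + h (x - y) = 2 * h x + 2 * h y

namespace Parallelogram

variable {A : Type*} [AddCommGroup A] {h : A → ℤ} (H : Parallelogram h)

include H

lemma zero : h 0 = 0 := by
  have := H.law 0 0
  rw [add_zero, sub_zero] at this
  omega

lemma neg (x : A) : h (-x) = h x := by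
  have h1 := H.law 0 x
  have h2 := H.law x 0
  rw [zero_add, zero_sub, H.zero] at h1
  omega

/-- The polar form. -/
def _root_.Fermat.Agent.ECFrob.polar {A : Type*} [AddCommGroup A] (h : A → ℤ) (x y : A) : ℤ :=
  h (x + y) - h x - h y

lemma three (x y z : A) :
    h (x + y + z) = h (x + y) + h (x + z) + h (y + z) - h x - h y - h z := by
  have h1 := H.law (x + y) z
  have h2 := H.law (x + z) y
  have h3 := H.law x (y - z)
  have h4 := H.law y z
  have e1 : x + z + y = x + y + z := by abel
  have e2 : x + (y - z) = x + y - z := by abel
  have e3 : x - (y - z) = x + z - y := by abel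
  rw [e1] at h2
  rw [e2, e3] at h3
  omega

lemma polar_add (x y z : A) : polar h (x + y) z = polar h x z + polar h y z := by
  simp only [polar, H.three]
  ring

omit H in
lemma polar_comm (x y : A) : polar h x y = polar h y x := by
  simp only [polar, add_comm]
  ring

lemma polar_zero (y : A) : polar h 0 y = 0 := by
  simp only [polar, zero_add, H.zero]
  ring

lemma polar_neg (x y : A) : polar h (-x) y = -polar h x y := by
  have := H.polar_add x (-x) y
  rw [add_neg_cancel, H.polar_zero] at this
  linarith

/-- The polar form as an additive map in the first variable. -/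
def polarHom (y : A) : A →+ ℤ where
  toFun x := polar h x y
  map_zero' := H.polar_zero y
  map_add' x x' := H.polar_add x x' y

lemma polar_zsmul (n : ℤ) (x y : A) : polar h (n • x) y = n * polar h x y := by
  have := map_zsmul (H.polarHom y) n x
  simpa [polarHom] using this

lemma polar_zsmul_right (n : ℤ) (x y : A) : polar h x (n • y) = n * polar h x y := by
  rw [polar_comm, H.polar_zsmul, polar_comm]

lemma polar_add_right (x y z : A) : polar h x (y + z) = polar h x y + polar h x z := by
  rw [polar_comm, H.polar_add, polar_comm y, polar_comm z]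

lemma polar_self (x : A) : polar h x x = 2 * h x := by
  have := H.law x x
  rw [sub_self, H.zero] at this
  simp only [polar]
  linarith

lemma zsmul (n : ℤ) (x : A) : h (n • x) = n ^ 2 * h x := by
  have h1 := H.polar_self (n • x)
  rw [H.polar_zsmul, H.polar_zsmul_right, H.polar_self] at h1
  nlinarith

omit H in
lemma add (x y : A) : h (x + y) = h x + h y + polar h x y := by
  simp only [polar]
  ring

/-- Binary quadratic form. -/
lemma comb (a b : ℤ) (x y : A) :
    h (a • x + b • y) = a ^ 2 * h x + b ^ 2 * h y + a * b * polar h x y := by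
  rw [add (h := h), H.zsmul, H.zsmul, H.polar_zsmul, H.polar_zsmul_right]
  ring

/-- Cauchy-Schwarz inequality. -/
lemma cauchy (hpos : ∀ x, 0 ≤ h x) (x y : A) : polar h x y ^ 2 ≤ 4 * h x * h y := by
  by_cases hx : h x = 0
  · -- then polar vanishes
    have key : ∀ n : ℤ, 0 ≤ h y + n * polar h x y := by
      intro n
      have := hpos (n • x + (1 : ℤ) • y)
      rw [H.comb] at this
      rw [hx] at this
      linarith
    have hp : polar h x y = 0 := by
      by_contra hne
      rcases lt_or_gt_of_ne hne with hlt | hlt
      · have := key (h y + 1)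
        have hy := hpos y
        nlinarith
      · have := key (-(h y + 1))
        have hy := hpos y
        nlinarith
    rw [hp, hx]
    simp
  · have hx' : 0 < h x := lt_of_le_of_ne (hpos x) (Ne.symm hx)
    have := hpos ((polar h x y) • x + (-2 * h x) • y)
    rw [H.comb] at this
    have h2 : 0 ≤ h x * (4 * h x * h y - polar h x y ^ 2) := by
      nlinarith
    have h3 := (mul_nonneg_iff_of_pos_left hx').mp h2
    linarith

end Parallelogram

end Quadratic

end Fermat.Agent.ECFrob
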