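import Fermat.Agent.ECFrob.Spec

/-!
# Separability of `±1 + φ β`
-/

set_option autoImplicit false

namespace Fermat.Agent.ECFrob

open Polynomial WeierstrassCurve WeierstrassCurve.Affine WeierstrassCurve.Affine.Point

section Sub

variable {k : Type*} [Field k] [Fintype k] (W : Affine k) (L : Type*) [Field L] [DecidableEq L]
  [Algebra k L] (p : ℕ) [hp : Fact p.Prime] [CharP k p] [CharP L p]

/-- The subfield `L ^ p`. -/
def powSub : Subfield L := (frobenius L p).fieldRange

variable {L} {p} in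
omit [DecidableEq L] in
lemma pow_mem_powSub (z : L) : z ^ p ∈ powSub L p := ⟨z, rfl⟩

omit [DecidableEq L] in
lemma algebraMap_mem_powSub (c : k) : algebraMap k L c ∈ powSub L p := by
  obtain ⟨d, hd⟩ := surjective_frobenius k p c
  refine ⟨algebraMap k L d, ?_⟩
  rw [frobenius_def, ← map_pow, ← frobenius_def, hd]

/-- `L ^ p` is a `k`-algebra. -/
@[reducible]
noncomputable def algPowSub : Algebra k (powSub L p) :=
  ((algebraMap k L).codRestrict (powSub L p) (algebraMap_mem_powSub L p)).toAlgebra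

attribute [local instance] algPowSub

/-- Inclusion `L ^ p → L` as a `k`-algebra homomorphism. -/
noncomputable def inclPowSub : (powSub L p) →ₐ[k] L :=
  { (powSub L p).subtype with commutes' := fun _ => rfl }

open Classical in
/-- The subgroup of points with coordinates in `L ^ p`. -/
noncomputable def subPts : AddSubgroup (W⁄L).Point :=
  (Point.map (W' := W) (S := k) (inclPowSub (k := k) L p)).range

variable {W L p}

lemma mem_subPts {x y : L} (h : (W⁄L).Nonsingular x y) :
    some x y h ∈ subPts W L p ↔ x ∈ powSub L p ∧ y ∈ powSub L p := by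
  classical
  constructor
  · rintro ⟨Q, hQ⟩
    rcases Q with _ | ⟨a, b, hab⟩
    · exact absurd hQ.symm (some_ne_zero h)
    · rw [Point.map_some, some.injEq] at hQ
      rw [← hQ.1, ← hQ.2]
      exact ⟨a.2, b.2⟩
  · rintro ⟨hx, hy⟩
    refine ⟨some ⟨x, hx⟩ ⟨y, hy⟩ ((W.baseChange_nonsingular
      (f := inclPowSub (k := k) L p) (inclPowSub L p).injective _ _).mp h), rfl⟩

omit [DecidableEq L] in
lemma pow_card_mem (z : L) : z ^ Fintype.card k ∈ powSub L p := by
  obtain ⟨n, hn, hq⟩ := FiniteField.card k p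
  rw [hq]
  obtain ⟨m, hm⟩ : ∃ m : ℕ, (n : ℕ) = m + 1 := ⟨n - 1, by have := n.pos; omega⟩
  rw [hm, pow_succ, pow_mul]
  exact pow_mem_powSub _

lemma frob_mem_subPts (Q : (W⁄L).Point) : frob W L Q ∈ subPts W L p := by
  rcases Q with _ | ⟨x, y, h⟩
  · rw [← zero_def, _root_.map_zero]; exact zero_mem _
  · rw [frob_some, mem_subPts]
    exact ⟨pow_card_mem _, pow_card_mem _⟩

omit [DecidableEq L] in
/-- If `x ∈ L ^ p` then `y ∈ L ^ p`. -/
lemma y_mem_powSub [W.IsElliptic] {x y : L} (h : (W⁄L).Equation x y) (hx : x ∈ powSub L p) :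
    y ∈ powSub L p := by
  have ha : ∀ c : k, algebraMap k L c ∈ powSub L p := algebraMap_mem_powSub L p
  rw [equation_iff] at h
  have e1 : (W⁄L).a₁ = algebraMap k L W.a₁ := rfl
  have e2 : (W⁄L).a₂ = algebraMap k L W.a₂ := rfl
  have e3 : (W⁄L).a₃ = algebraMap k L W.a₃ := rfl
  have e4 : (W⁄L).a₄ = algebraMap k L W.a₄ := rfl
  have e6 : (W⁄L).a₆ = algebraMap k L W.a₆ := rfl
  rw [e1, e2, e3, e4, e6] at h
  set c : L := algebraMap k L W.a₁ * x + algebraMap k L W.a₃ with hc
  set d : L := x ^ 3 + algebraMap k L W.a₂ * x ^ 2 + algebraMap k L W.a₄ * x +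
    algebraMap k L W.a₆ with hd
  have hcS : c ∈ powSub L p := add_mem (mul_mem (ha _) hx) (ha _)
  have hdS : d ∈ powSub L p := add_mem (add_mem (add_mem (pow_mem hx _)
    (mul_mem (ha _) (pow_mem hx _))) (mul_mem (ha _) hx)) (ha _)
  have hy : y ^ 2 + c * y = d := by rw [hc, ← h]; ring
  rcases hp.out.eq_two_or_odd' with h2 | ⟨m, hm⟩
  · -- characteristic two
    subst h2
    by_cases hc0 : c = 0
    · -- `x` is a constant
      have hy2 : y ^ 2 = d := by rw [← hy, hc0]; ring
      have htwo : (2 : k) = 0 := CharTwo.two_eq_zero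
      have ha1 : W.a₁ ≠ 0 := by
        intro ha1
        have ha3 : W.a₃ = 0 := by
          rw [hc, ha1] at hc0
          simpa using hc0
        apply W.isUnit_Δ.ne_zero
        rw [WeierstrassCurve.Δ, WeierstrassCurve.b₂, WeierstrassCurve.b₄, WeierstrassCurve.b₆,
          WeierstrassCurve.b₈, ha1, ha3]
        linear_combination (-(8 * W.a₂ ^ 2 * (0 ^ 2 * W.a₆ + 4 * W.a₂ * W.a₆ - 0 * 0 * W.a₄ +
          W.a₂ * 0 ^ 2 - W.a₄ ^ 2)) - 32 * W.a₄ ^ 3 - 27 * 8 * W.a₆ ^ 2 +
          9 * 16 * W.a₂ * W.a₄ * W.a₆) * htwo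
      have hxc : x = algebraMap k L (-(W.a₃ / W.a₁)) := by
        have h1 : algebraMap k L W.a₁ ≠ 0 := by simpa using ha1
        rw [map_neg, map_div₀]
        field_simp
        linear_combination hc0
      obtain ⟨e, he⟩ := surjective_frobenius k 2 ((-(W.a₃ / W.a₁)) ^ 3 +
        W.a₂ * (-(W.a₃ / W.a₁)) ^ 2 + W.a₄ * (-(W.a₃ / W.a₁)) + W.a₆)
      have hde : d = (algebraMap k L e) ^ 2 := by
        rw [← map_pow, ← frobenius_def (p := 2), he, hd, hxc]
        simp only [map_add, map_mul, map_pow]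
      have hye : y = algebraMap k L e := by
        have h3 : (y - algebraMap k L e) ^ 2 = 0 := by
          rw [sub_pow_char (R := L) (p := 2), hy2, hde, sub_self]
        exact sub_eq_zero.mp (pow_eq_zero_iff two_ne_zero |>.mp h3)
      rw [hye]
      exact ha e
    · have : y = (d - y ^ 2) / c := by
        field_simp
        linear_combination hy
      rw [this]
      exact div_mem (sub_mem hdS (pow_mem_powSub y)) hcS
  · -- odd characteristic
    have htwo : (2 : L) ≠ 0 := by
      intro h2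
      have h3 : ((2 : ℕ) : L) = 0 := by exact_mod_cast h2
      rw [CharP.cast_eq_zero_iff L p] at h3
      have := (Nat.prime_dvd_prime_iff_eq hp.out Nat.prime_two).mp h3
      omega
    set z : L := 2 * y + c with hz
    have hz2 : z ^ 2 = c ^ 2 + 4 * d := by rw [hz, ← hy]; ring
    have h2S : (2 : L) ∈ powSub L p := ofNat_mem _ 2
    have h4S : (4 : L) ∈ powSub L p := ofNat_mem _ 4
    have hz2S : z ^ 2 ∈ powSub L p := by
      rw [hz2]
      exact add_mem (pow_mem hcS _) (mul_mem h4S hdS)
    have hzS : z ∈ powSub L p := by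
      by_cases hz0 : z = 0
      · rw [hz0]; exact zero_mem _
      · have : z = z ^ p / (z ^ 2) ^ m := by
          have hz2' : (z ^ 2) ^ m ≠ 0 := pow_ne_zero _ (pow_ne_zero _ hz0)
          rw [eq_div_iff hz2', ← pow_mul, hm, pow_succ']
        rw [this]
        exact div_mem (pow_mem_powSub z) (pow_mem hz2S _)
    have : y = (z - c) / 2 := by
      rw [hz]
      field_simp
      ring
    rw [this]
    exact div_mem (sub_mem hzS hcS) h2S

end Sub

section

variable {k : Type*} [Field k] [Fintype k] {W : Affine k} {K L : Type*} [Field K] [Field L]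
  [Algebra k K] [Algebra k L] [Algebra K L] [IsScalarTower k K L] [DecidableEq K] [DecidableEq L]
  {G : Generic W K L} (p : ℕ) [hp : Fact p.Prime] [CharP k p] [CharP K p] [CharP L p]

omit [Fintype k] [DecidableEq K] [DecidableEq L] [CharP k p] [CharP K p] in
lemma ξ_not_mem_powSub : G.ξ ∉ powSub L p := by
  rintro ⟨z, hz⟩
  rw [frobenius_def] at hz
  have h1 : G.ι z = z := by
    have h2 : frobenius L p (G.ι z) = frobenius L p z := by
      rw [frobenius_def, frobenius_def, ← map_pow, hz, G.ι_ξ]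
    exact frobenius_inj L p h2
  obtain ⟨u, w, hw, huw⟩ := G.fix z h1
  have h3 : aeval G.ξ (X * w ^ p) = aeval G.ξ (u ^ p) := by
    rw [map_mul, aeval_X, map_pow, map_pow, ← huw, mul_pow, hz]
  have h4 := G.inj h3
  have hu : u ≠ 0 := by
    rintro rfl
    rw [zero_pow hp.out.ne_zero] at h4
    exact mul_ne_zero X_ne_zero (pow_ne_zero _ hw) h4
  have h5 := congrArg natDegree h4
  rw [natDegree_X_mul (pow_ne_zero _ hw), natDegree_pow, natDegree_pow] at h5
  have h6 : p ∣ 1 := by
    have : (p : ℤ) ∣ 1 := ⟨(u.natDegree : ℤ) - w.natDegree, by push_cast [← Nat.cast_inj (R := ℤ)] at h5 ⊢; linarith⟩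
    exact_mod_cast this
  exact hp.out.one_lt.ne' (Nat.dvd_one.mp h6)

lemma P_not_mem_subPts : G.P ∉ subPts W L p := by
  rw [Generic.P, mem_subPts]
  exact fun h => ξ_not_mem_powSub p h.1

include p in
/-- Separability. -/
theorem wronskian_ne_zero [IsAlgClosed K] [W.IsElliptic] {ε : ℤ} (hε : ε = 1 ∨ ε = -1)
    (β : ℤ[X]) {u : Fin 2 → K[X]} {d : ℕ} (hu : G.IsRep (act W L (C ε + X * β) G.P) u d) :
    derivative (u 0) * u 1 - u 0 * derivative (u 1) ≠ 0 := by
  intro hw
  have hQ : act W L (C ε + X * β) G.P ∉ subPts W L p := by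
    intro hmem
    rw [act_add, act_C, act_mul, act_X] at hmem
    have h1 : ε • G.P ∈ subPts W L p := by
      have := sub_mem hmem (frob_mem_subPts (act W L β G.P))
      rwa [add_sub_cancel_right] at this
    rcases hε with rfl | rfl
    · rw [one_zsmul] at h1
      exact P_not_mem_subPts p h1
    · rw [neg_one_zsmul, neg_mem_iff] at h1
      exact P_not_mem_subPts p h1
  generalize act W L (C ε + X * β) G.P = Q at *
  rcases Q with _ | ⟨x, y, hxy⟩
  · exact hQ (zero_mem _)
  obtain ⟨hprim, hrep⟩ := hu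
  simp only [xRep_some, Matrix.cons_val_zero, Matrix.cons_val_one, mul_one] at hrep
  have hu1 : u 1 ≠ 0 := by
    intro h0
    rw [h0, _root_.map_zero, zero_mul, Generic.aeval_eq_zero] at hrep
    apply hprim.coeff_ne
    ext i
    fin_cases i
    · simp [hrep]
    · simp [h0]
  have hcop : IsCoprime (u 0) (u 1) := by
    rw [Polynomial.isCoprime_iff_aeval_ne_zero_of_isAlgClosed K K]
    intro a
    obtain ⟨i, hi⟩ := hprim.exists_eval_ne a
    fin_cases i
    · left; simpa using hi
    · right; simpa using hi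
  have hd1 : u 1 ∣ derivative (u 1) := by
    apply hcop.symm.dvd_of_dvd_mul_left
    rw [sub_eq_zero] at hw
    rw [← hw]
    exact dvd_mul_left _ _
  have h1 : derivative (u 1) = 0 := by
    by_contra hne
    exact absurd (Polynomial.degree_le_of_dvd hd1 hne) (not_le.mpr (degree_derivative_lt hu1))
  have h0 : derivative (u 0) = 0 := by
    rw [h1, mul_zero, sub_zero] at hw
    exact (mul_eq_zero.mp hw).resolve_right hu1
  have hpow : ∀ f : K[X], derivative f = 0 → ∃ g : K[X], f = g ^ p := by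
    intro f hf
    refine ⟨(contract p f).map (frobeniusEquiv K p).symm, ?_⟩
    rw [← Polynomial.expand_contract p hf hp.out.ne_zero]
    conv_rhs => rw [Polynomial.expand_contract p hf hp.out.ne_zero]
    exact polynomial_expand_eq K p _
  obtain ⟨g0, hg0⟩ := hpow _ h0
  obtain ⟨g1, hg1⟩ := hpow _ h1
  have hx : x ∈ powSub L p := by
    have h1' : aeval G.ξ (u 1) ≠ 0 := by rw [Ne, Generic.aeval_eq_zero]; exact hu1
    have : x = aeval G.ξ (u 0) / aeval G.ξ (u 1) := by
      rw [hrep]; field_simp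
    rw [this, hg0, hg1, map_pow, map_pow]
    exact div_mem (pow_mem_powSub _) (pow_mem_powSub _)
  exact hQ ((mem_subPts _).mpr ⟨hx, y_mem_powSub hxy.1 hx⟩)

end

end Fermat.Agent.ECFrob
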