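import Fermat.Agent.ECFrob.GenPt
import Fermat.Agent.ECFrob.Sep
import Fermat.Prelude.Def_FLTPrelim_Modularity

/-!
# The characteristic equation of Frobenius and the Hasse bound
-/

set_option autoImplicit false

namespace Fermat.Agent.ECFrob

open Polynomial WeierstrassCurve WeierstrassCurve.Affine WeierstrassCurve.Affine.Point

section Finite

variable {k : Type*} [Field k] [Fintype k] {K : Type*} [Field K] [Algebra k K]

lemma exists_of_pow_card_eq {x : K} (h : x ^ Fintype.card k = x) : ∃ a : k, algebraMap k K a = x := by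
  classical
  have hq : 1 < Fintype.card k := Fintype.one_lt_card
  set f : K[X] := X ^ Fintype.card k - X with hf
  have hf0 : f ≠ 0 := FiniteField.X_pow_card_sub_X_ne_zero K hq
  have hdeg : f.natDegree = Fintype.card k := FiniteField.X_pow_card_sub_X_natDegree_eq K hq
  set S : Finset K := Finset.univ.image (algebraMap k K) with hS
  have hScard : S.card = Fintype.card k := by
    rw [hS, Finset.card_image_of_injective _ (algebraMap k K).injective, Finset.card_univ]
  have hsub : S ⊆ f.roots.toFinset := by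
    intro y hy
    rw [hS, Finset.mem_image] at hy
    obtain ⟨a, -, rfl⟩ := hy
    rw [Multiset.mem_toFinset, mem_roots hf0, IsRoot.def, hf, eval_sub, eval_pow, eval_X,
      ← map_pow, FiniteField.pow_card, sub_self]
  have hle : f.roots.toFinset.card ≤ S.card := by
    rw [hScard, ← hdeg]
    exact (Multiset.toFinset_card_le _).trans (card_roots' f)
  have heq := Finset.eq_of_subset_of_card_le hsub hle
  have hx : x ∈ f.roots.toFinset := by
    rw [Multiset.mem_toFinset, mem_roots hf0, IsRoot.def, hf, eval_sub, eval_pow, eval_X, h,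
      sub_self]
  rw [← heq, hS, Finset.mem_image] at hx
  obtain ⟨a, -, ha⟩ := hx
  exact ⟨a, ha⟩

variable (W : Affine k) [DecidableEq k] [DecidableEq K]

/-- The fixed points of Frobenius are the rational points. -/
lemma card_frob_fixed : Nat.card {P : (W⁄K).Point // frob W K P = P} = Nat.card W.Point := by
  symm
  have h0 : Nat.card W.Point = Nat.card (W⁄k).Point := rfl
  rw [h0]
  refine Nat.card_congr (Equiv.ofBijective (fun P : (W⁄k).Point =>
    ⟨Point.map (W' := W) (S := k) (Algebra.ofId k K) P, ?_⟩) ⟨?_, ?_⟩)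
  · rcases P with _ | ⟨x, y, h⟩
    · rw [← zero_def, _root_.map_zero, _root_.map_zero]
    · rw [Point.map_some, frob_some]
      simp only [frobeniusAlgHom_apply, ← map_pow, FiniteField.pow_card]
  · intro P Q h
    exact Point.map_injective _ (congrArg Subtype.val h)
  · rintro ⟨P, hP⟩
    rcases P with _ | ⟨x, y, h⟩
    · exact ⟨0, by
        apply Subtype.ext
        exact _root_.map_zero _⟩
    · rw [frob_some] at hP
      simp only [some.injEq, frobeniusAlgHom_apply] at hP
      obtain ⟨a, rfl⟩ := exists_of_pow_card_eq hP.1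
      obtain ⟨b, rfl⟩ := exists_of_pow_card_eq hP.2
      have hab : (W⁄k).Nonsingular a b :=
        (W.baseChange_nonsingular (f := Algebra.ofId k K) (Algebra.ofId k K).injective a b).mp h
      exact ⟨some a b hab, by
        apply Subtype.ext
        rfl⟩

end Finite

section Group

variable {A : Type*} [AddCommGroup A]

lemma card_ker_comp (f g : A →+ A) (hg : Function.Surjective g) :
    Nat.card (f.comp g).ker = Nat.card g.ker * Nat.card f.ker := by
  let g' : (f.comp g).ker →+ f.ker :=
    { toFun := fun x => ⟨g x.1, x.2⟩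
      map_zero' := Subtype.ext (_root_.map_zero g)
      map_add' := fun x y => Subtype.ext (_root_.map_add g x.1 y.1) }
  have hsurj : Function.Surjective g' := by
    rintro ⟨y, hy⟩
    obtain ⟨x, rfl⟩ := hg y
    exact ⟨⟨x, hy⟩, rfl⟩
  have h1 := AddSubgroup.card_eq_card_quotient_mul_card_addSubgroup g'.ker
  have h2 : Nat.card ((f.comp g).ker ⧸ g'.ker) = Nat.card f.ker :=
    Nat.card_congr (QuotientAddGroup.quotientKerEquivOfSurjective g' hsurj).toEquiv
  have h3 : Nat.card g'.ker = Nat.card g.ker := by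
    refine Nat.card_congr ⟨fun x => ⟨x.1.1, ?_⟩, fun x => ⟨⟨x.1, ?_⟩, ?_⟩, ?_, ?_⟩
    · have := x.2
      rw [AddMonoidHom.mem_ker] at this ⊢
      exact congrArg Subtype.val this
    · rw [AddMonoidHom.mem_ker, AddMonoidHom.comp_apply, x.2, _root_.map_zero]
    · rw [AddMonoidHom.mem_ker]
      exact Subtype.ext x.2
    · intro x; rfl
    · intro x; rfl
  rw [h1, h2, h3, mul_comm]

end Group

section Main

variable {k : Type*} [Field k] [Fintype k] (W : Affine k) [W.IsElliptic] (K : Type*) [Field K]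
  [Algebra k K] [IsAlgClosed K] [DecidableEq K] [DecidableEq (W⁄K).FunctionField]

/-- The height (degree) of the endomorphism `p(φ)`. -/
noncomputable def hgt (p : ℤ[X]) : ℕ :=
  (genPt W K).ht (act W (W⁄K).FunctionField p (genPt W K).P)

/-- The Descr of `act`. -/
lemma exists_descr (p : ℤ[X]) : ∃ v, Descr (act W K p) v ∧ IsPrim v (hgt W K p) ∧
    (genPt W K).IsRep (act W (W⁄K).FunctionField p (genPt W K).P) v (hgt W K p) := by
  obtain ⟨v, hv⟩ := Generic.exists_isRep_ht (act_mem_odd (G := genPt W K) p)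
  exact ⟨v, fun x₀ y₀ h₀ => exists_spec h₀ _ hv, hv.1, hv⟩

theorem card_ker_act {ε : ℤ} (hε : ε = 1 ∨ ε = -1) (β : ℤ[X]) :
    Nat.card (act W K (C ε + X * β)).ker = hgt W K (C ε + X * β) ∧
      Function.Surjective (act W K (C ε + X * β)) := by
  obtain ⟨p, hp⟩ := CharP.exists k
  haveI : Fact p.Prime := ⟨CharP.char_is_prime k p⟩
  haveI : CharP K p := charP_of_injective_algebraMap (algebraMap k K).injective p
  haveI : CharP (W⁄K).FunctionField p :=
    charP_of_injective_algebraMap (algebraMap k (W⁄K).FunctionField).injective p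
  obtain ⟨v, h1, h2, h3⟩ := exists_descr W K (C ε + X * β)
  exact card_ker_eq h1 h2 (wronskian_ne_zero p hε β h3)

lemma hgt_law : Parallelogram (fun p : ℤ[X] => (hgt W K p : ℤ)) := by
  refine ⟨fun p q => ?_⟩
  have := Generic.ht_add_add_ht_sub (act_mem_odd (G := genPt W K) p)
    (act_mem_odd (G := genPt W K) q)
  rw [← act_add, ← act_sub] at this
  exact_mod_cast this

lemma hgt_one : hgt W K 1 = 1 := by
  rw [hgt, act_one, Generic.ht_P]

lemma hgt_X_mul (p : ℤ[X]) : hgt W K (X * p) = Fintype.card k * hgt W K p := by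
  rw [hgt, act_mul, act_X, Generic.ht_frob (act_mem_odd (G := genPt W K) p), ← hgt]

lemma hgt_one_sub_X : (hgt W K (1 - X) : ℤ) = W.card := by
  have h := (card_ker_act W K (ε := 1) (Or.inl rfl) (C (-1))).1
  have e : (C 1 + X * C (-1) : ℤ[X]) = 1 - X := by
    rw [C_neg, C_1]; ring
  rw [e] at h
  rw [← h, WeierstrassCurve.card]
  classical
  rw [← card_frob_fixed (K := K) W]
  congr 1
  refine Nat.card_congr (Equiv.subtypeEquivRight fun P => ?_)
  rw [AddMonoidHom.mem_ker, act_sub, act_one, act_X, sub_eq_zero, eq_comm]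

/-- The polar form. -/
local notation "β" => polar (fun p : ℤ[X] => (hgt W K p : ℤ))

lemma polar_one_X : β 1 X = W.traceOfFrobenius := by
  have h1 := (hgt_law W K).law 1 X
  have h2 := hgt_one_sub_X W K
  have h3 := hgt_X_mul W K 1
  have h4 := hgt_one W K
  rw [mul_one, h4, mul_one] at h3
  simp only [polar, WeierstrassCurve.traceOfFrobenius, Nat.card_eq_fintype_card] at *
  rw [h2, h3, h4] at h1
  rw [h3, h4]
  push_cast at *
  linarith

lemma hgt_one_add_X : (hgt W K (1 + X) : ℤ) = 1 + Fintype.card k + W.traceOfFrobenius := by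
  have h1 := polar_one_X W K
  have h3 := hgt_X_mul W K 1
  have h4 := hgt_one W K
  rw [mul_one, h4, mul_one] at h3
  simp only [polar] at h1
  rw [h3, h4] at h1
  push_cast at h1
  linarith

lemma hgt_one_sub_X_sq : (hgt W K (1 - X ^ 2) : ℤ) =
    (1 + Fintype.card k - W.traceOfFrobenius) * (1 + Fintype.card k + W.traceOfFrobenius) := by
  have h1 := (card_ker_act W K (ε := 1) (Or.inl rfl) (-X)).1
  have e1 : (C 1 + X * -X : ℤ[X]) = 1 - X ^ 2 := by
    rw [C_1]; ring
  rw [e1] at h1
  obtain ⟨h2, h2s⟩ := card_ker_act W K (ε := 1) (Or.inl rfl) (C 1)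
  have e2 : (C 1 + X * C 1 : ℤ[X]) = 1 + X := by
    rw [C_1]; ring
  rw [e2] at h2 h2s
  have h3 := (card_ker_act W K (ε := 1) (Or.inl rfl) (C (-1))).1
  have e3 : (C 1 + X * C (-1) : ℤ[X]) = 1 - X := by
    rw [C_neg, C_1]; ring
  rw [e3] at h3
  have h4 := card_ker_comp (act W K (1 - X)) (act W K (1 + X)) h2s
  have e4 : (act W K (1 - X)).comp (act W K (1 + X)) = act W K (1 - X ^ 2) := by
    ext P
    rw [AddMonoidHom.comp_apply, ← act_mul]
    congr 2
    ring
  rw [e4, h1, h2, h3] at h4
  have h5 := hgt_one_sub_X W K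
  have h6 := hgt_one_add_X W K
  rw [h4, Nat.cast_mul, h5, h6, WeierstrassCurve.traceOfFrobenius, Nat.card_eq_fintype_card]
  ring

lemma hgt_C_add_C_mul_X (a b : ℤ) : (hgt W K (C a + C b * X) : ℤ) =
    a ^ 2 + a * b * W.traceOfFrobenius + b ^ 2 * Fintype.card k := by
  have h := (hgt_law W K).comb a b 1 X
  have h3 := hgt_X_mul W K 1
  have h4 := hgt_one W K
  rw [mul_one, h4, mul_one] at h3
  rw [polar_one_X] at h
  simp only [h3, h4] at h
  have e : (a • 1 + b • X : ℤ[X]) = C a + C b * X := by
    rw [← Polynomial.C_mul', ← Polynomial.C_mul', mul_one]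
  rw [e] at h
  rw [h]
  push_cast
  ring

lemma polar_one_X_sq : β 1 (X ^ 2) = W.traceOfFrobenius ^ 2 - 2 * Fintype.card k := by
  have h1 := (hgt_law W K).law 1 (X ^ 2)
  have h2 := hgt_one_sub_X_sq W K
  have h3 := hgt_X_mul W K 1
  have h4 := hgt_one W K
  have h5 := hgt_X_mul W K X
  rw [mul_one, h4, mul_one] at h3
  rw [h3, ← pow_two] at h5
  simp only [polar] at *
  rw [h2, h4, h5] at h1
  rw [h4, h5]
  push_cast at *
  linear_combination h1

lemma polar_X_mul (p r : ℤ[X]) : β (X * p) (X * r) = Fintype.card k * β p r := by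
  simp only [polar, ← mul_add, hgt_X_mul]
  push_cast
  ring

theorem hgt_charEq :
    hgt W K (X ^ 2 - C W.traceOfFrobenius * X + C (Fintype.card k : ℤ)) = 0 := by
  have H := hgt_law W K
  set t := W.traceOfFrobenius with ht
  set q : ℤ := (Fintype.card k : ℤ) with hq
  have h3 := hgt_X_mul W K 1
  have h4 := hgt_one W K
  have h5 := hgt_X_mul W K X
  rw [mul_one, h4, mul_one] at h3
  rw [h3, ← pow_two] at h5
  have h6 : β X (X ^ 2) = q * t := by
    have := polar_X_mul W K 1 X
    rwa [mul_one, ← pow_two, polar_one_X] at this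
  have h7 := polar_one_X_sq W K
  set h : ℤ[X] → ℤ := fun p : ℤ[X] => (hgt W K p : ℤ) with hh
  have h8 := Parallelogram.add (h := h) (X ^ 2 + (-t) • X) (q • 1)
  have h9 := Parallelogram.add (h := h) (X ^ 2) ((-t) • X)
  have h10 := H.polar_add (X ^ 2) ((-t) • X) (q • 1)
  have h11 := H.polar_zsmul_right q (X ^ 2) 1
  have h12 := H.polar_zsmul_right q ((-t) • X) 1
  have h13 := H.polar_zsmul (-t) X 1
  have h14 := H.polar_zsmul_right (-t) (X ^ 2) X
  have h15 := H.zsmul (-t) X
  have h16 := H.zsmul q 1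
  have h17 := polar_one_X W K
  rw [Parallelogram.polar_comm] at h6 h7 h17
  rw [← ht] at h7 h17
  rw [← hq] at h7
  have g1 : h 1 = 1 := by simp only [hh, h4, Nat.cast_one]
  have g2 : h X = q := by simp only [hh, h3, hq]
  have g3 : h (X ^ 2) = q * q := by simp only [hh, h5, hq, Nat.cast_mul]
  have key : h (X ^ 2 + (-t) • X + q • 1) = 0 := by
    rw [h8, h9, h10, h11, h12, h13, h14, h15, h16, h6, h7, h17, g1, g2, g3]
    ring
  have e : X ^ 2 + (-t) • X + q • 1 = (X ^ 2 - C t * X + C q : ℤ[X]) := by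
    rw [← Polynomial.C_mul', ← Polynomial.C_mul', mul_one, C_neg]
    ring
  rw [e] at key
  have key' : (hgt W K (X ^ 2 - C t * X + C q) : ℤ) = 0 := key
  exact_mod_cast key'

omit [DecidableEq (W⁄K).FunctionField] in
/-- The characteristic equation of Frobenius. -/
theorem act_charEq (Q : (W⁄K).Point) :
    act W K (X ^ 2 - C W.traceOfFrobenius * X + C (Fintype.card k : ℤ)) Q = 0 := by
  classical
  obtain ⟨v, hv1, hv2, -⟩ := exists_descr W K
    (X ^ 2 - C W.traceOfFrobenius * X + C (Fintype.card k : ℤ))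
  rw [hgt_charEq] at hv2
  obtain ⟨a, ha⟩ := natDegree_eq_zero.mp (Nat.le_zero.mp (hv2.natDegree_le 0))
  obtain ⟨b, hb⟩ := natDegree_eq_zero.mp (Nat.le_zero.mp (hv2.natDegree_le 1))
  set α := act W K (X ^ 2 - C W.traceOfFrobenius * X + C (Fintype.card k : ℤ)) with hα
  by_contra hne
  have hQ0 : Q ≠ 0 := by
    rintro rfl
    exact hne (_root_.map_zero _)
  have key : ∀ Q' : (W⁄K).Point, Q' ≠ 0 → a * (α Q').xRep 1 = b * (α Q').xRep 0 := by
    intro Q' hQ'
    rcases Q' with _ | ⟨x₀, y₀, h₀⟩
    · exact absurd rfl hQ'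
    · have := hv1 x₀ y₀ h₀
      rwa [← ha, ← hb, eval_C, eval_C] at this
  have hb0 : b ≠ 0 := by
    intro hb0
    have h1 := key Q hQ0
    rcases hαQ : α Q with _ | ⟨x, y, h⟩
    · exact hne hαQ
    · rw [hαQ] at h1
      simp only [xRep_some, Matrix.cons_val_zero, Matrix.cons_val_one, mul_one, hb0,
        zero_mul] at h1
      obtain ⟨i, hi⟩ := hv2.exists_eval_ne 0
      fin_cases i
      · exact hi (by simp [← ha, h1])
      · exact hi (by simp [← hb, hb0])
  have hval : ∀ Q' : (W⁄K).Point, Q' ≠ 0 → ∃ y h, α Q' = some (a / b) y h := by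
    intro Q' hQ'
    have h1 := key Q' hQ'
    rcases hαQ : α Q' with _ | ⟨x, y, h⟩
    · rw [hαQ, ← zero_def] at h1
      simp only [xRep_zero, Matrix.cons_val_zero, Matrix.cons_val_one, mul_one, mul_zero] at h1
      exact absurd h1.symm hb0
    · rw [hαQ] at h1
      simp only [xRep_some, Matrix.cons_val_zero, Matrix.cons_val_one, mul_one] at h1
      have : x = a / b := by
        rw [eq_div_iff hb0, h1, mul_comm]
      subst this
      exact ⟨y, h, rfl⟩
  have hinj : Function.Injective α := by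
    rw [injective_iff_map_eq_zero]
    intro Q' hQ'
    by_contra h0
    obtain ⟨y, h, he⟩ := hval Q' h0
    rw [hQ'] at he
    exact some_ne_zero h he.symm
  haveI : Infinite (W⁄K).Point := infinite_points
  have hfin : (Set.range α).Finite := by
    refine ((finite_points (W := (W⁄K)) (Set.finite_singleton (a / b))).union
      (Set.finite_singleton 0)).subset ?_
    rintro _ ⟨Q', rfl⟩
    by_cases h0 : Q' = 0
    · right
      rw [h0, _root_.map_zero]
      rfl
    · left
      obtain ⟨y, h, he⟩ := hval Q' h0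
      exact ⟨_, y, h, he, rfl⟩
  exact Set.infinite_range_of_injective hinj hfin

omit [DecidableEq (W⁄K).FunctionField] in
theorem frob_charEq (Q : (W⁄K).Point) :
    frob W K (frob W K Q) - W.traceOfFrobenius • frob W K Q + (Fintype.card k : ℤ) • Q = 0 := by
  have h := act_charEq W K Q
  rwa [act_add, act_sub, act_mul, act_C, act_C, act_X, pow_two, act_mul, act_X, act_X] at h

lemma hgt_add_of_hgt_eq_zero {p z : ℤ[X]} (hz : hgt W K z = 0) : hgt W K (p + z) = hgt W K p := by
  have H := hgt_law W K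
  set h : ℤ[X] → ℤ := fun p : ℤ[X] => (hgt W K p : ℤ) with hh
  have h1 := H.cauchy (fun x => by simp only [hh]; positivity) p z
  have h2 : h z = 0 := by simp only [hh, hz, Nat.cast_zero]
  rw [h2, mul_zero] at h1
  have h3 : polar h p z = 0 := pow_eq_zero_iff (two_ne_zero) |>.mp (le_antisymm h1 (sq_nonneg _))
  have h4 := Parallelogram.add (h := h) p z
  rw [h2, h3, add_zero, add_zero] at h4
  have h5 : (hgt W K (p + z) : ℤ) = hgt W K p := h4
  exact_mod_cast h5

omit [DecidableEq (W⁄K).FunctionField] in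
/-- The number of elements of the kernel of `c - φ`, for integers `c ≡ ±1` modulo `q`. -/
theorem card_ker_C_sub_X {ε c : ℤ} (hε : ε = 1 ∨ ε = -1) (hc : (Fintype.card k : ℤ) ∣ c - ε) :
    (Nat.card (act W K (C c - X)).ker : ℤ) =
      c ^ 2 - c * W.traceOfFrobenius + Fintype.card k := by
  classical
  obtain ⟨m, hm⟩ := hc
  set t := W.traceOfFrobenius with ht
  set q : ℤ := (Fintype.card k : ℤ) with hq
  have e : (C ε + X * ((C t - X) * C m - 1) : ℤ[X]) = C c - X + C (-m) * (X ^ 2 - C t * X + C q) := by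
    have h1 : c = ε + q * m := by linarith
    rw [h1, C_add, C_mul, C_neg]
    ring
  have h1 := (card_ker_act W K hε ((C t - X) * C m - 1)).1
  have h2 : act W K (C ε + X * ((C t - X) * C m - 1)) = act W K (C c - X) := by
    ext Q
    rw [e, act_add, act_mul, act_charEq, _root_.map_zero, add_zero]
  have h3 : hgt W K (C (-m) * (X ^ 2 - C t * X + C q)) = 0 := by
    have h4 := (hgt_law W K).zsmul (-m) (X ^ 2 - C t * X + C q)
    have h5 : hgt W K (X ^ 2 - C t * X + C q) = 0 := hgt_charEq W K
    simp only [h5, Nat.cast_zero, mul_zero, ← Polynomial.C_mul'] at h4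
    exact_mod_cast h4
  rw [h2, e, hgt_add_of_hgt_eq_zero W K h3] at h1
  have h4 := hgt_C_add_C_mul_X W K c (-1)
  have e2 : (C c + C (-1) * X : ℤ[X]) = C c - X := by
    rw [C_neg, C_1]; ring
  rw [e2, ← h1] at h4
  rw [h4]
  ring

end Main

/-- The Hasse bound. -/
theorem hasse_bound {k : Type*} [Field k] [Fintype k] (W : WeierstrassCurve k) [W.IsElliptic] :
    W.traceOfFrobenius ^ 2 ≤ 4 * Fintype.card k := by
  classical
  have h1 := (hgt_law W (AlgebraicClosure k)).cauchy (fun x => by positivity) 1 X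
  have h3 := hgt_X_mul W (AlgebraicClosure k) 1
  have h4 := hgt_one W (AlgebraicClosure k)
  rw [mul_one, h4, mul_one] at h3
  rw [polar_one_X] at h1
  simp only [h3, h4] at h1
  simpa using h1

end Fermat.Agent.ECFrob
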