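import Fermat.Agent.ECFrob.CharpolyTors
import Fermat.Agent.EC.RedFrobMod
import Fermat.Agent.Frob.Charpoly

/-!
# The characteristic polynomial of Frobenius elements on the torsion of elliptic curves over `ℚ`
-/

set_option autoImplicit false

namespace Fermat.Agent.ECFrob

open Polynomial WeierstrassCurve WeierstrassCurve.Affine WeierstrassCurve.Affine.Point
open Fermat.Agent.Torsion Fermat.Agent.ECRed

lemma isElliptic_reductionMod {W : WeierstrassCurve ℤ} {ℓ : ℕ} [Fact ℓ.Prime]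
    (hW : W.IsGoodPrimeFor ℓ) : (W.reductionMod ℓ).IsElliptic := by
  refine ⟨isUnit_iff_ne_zero.mpr ?_⟩
  rw [WeierstrassCurve.reductionMod, WeierstrassCurve.map_Δ]
  intro h
  apply hW
  rwa [eq_intCast, ZMod.intCast_zmod_eq_zero_iff_dvd] at h

/-- **Characteristic polynomial of a Frobenius element on `E[p]`**, at a prime of good reduction. -/
theorem charpoly_galoisRep {W : WeierstrassCurve ℤ} {ℓ : ℕ} [hℓ : Fact ℓ.Prime]
    (hW : W.IsGoodPrimeFor ℓ) {A : ValuationSubring (AlgebraicClosure ℚ)}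
    (hA : A.LiesOverPrime ℓ) {σ : AlgebraicClosure ℚ ≃ₐ[ℚ] AlgebraicClosure ℚ}
    (hσ : A.IsFrobeniusAt σ ℓ) {p : ℕ} [hp : Fact p.Prime] (hpℓ : ℓ ≠ p)
    [Module.Finite (ZMod p)
      (Submodule.torsionBy ℤ ((W.map (Int.castRingHom ℚ))⁄(AlgebraicClosure ℚ)).Point p)] :
    LinearMap.charpoly (galoisRepModuleEnd (S := ℚ) (K := AlgebraicClosure ℚ)
      (W.map (Int.castRingHom ℚ)) p σ) =
        X ^ 2 - C (W.apOfModel ℓ : ZMod p) * X + C (ℓ : ZMod p) := by
  classical
  haveI := charP_residueField_of_liesOver hℓ.out hA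
  letI : Algebra (ZMod ℓ) (IsLocalRing.ResidueField A) :=
    ZMod.algebra (IsLocalRing.ResidueField A) ℓ
  have hnd : ¬ ℓ ∣ p := fun h => hpℓ ((Nat.prime_dvd_prime_iff_eq hℓ.out hp.out).mp h)
  obtain ⟨e, he, -⟩ := exists_redTorsionMod hW hA (n := p) hnd
  haveI : (W.reductionMod ℓ).IsElliptic := isElliptic_reductionMod hW
  haveI : Module.Finite (ZMod p)
      (Submodule.torsionBy ℤ ((W.reductionMod ℓ)⁄(IsLocalRing.ResidueField A)).Point p) :=
    Module.Finite.equiv e
  have hpk : (p : ZMod ℓ) ≠ 0 := by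
    rw [Ne, ZMod.natCast_eq_zero_iff]
    exact hnd
  have key := charpoly_frob (W.reductionMod ℓ) (K := IsLocalRing.ResidueField A) (ℓ := p) hpk
    (e.conj (galoisRepModuleEnd (S := ℚ) (K := AlgebraicClosure ℚ)
      (W.map (Int.castRingHom ℚ)) p σ)) (fun P => by
        rw [LinearEquiv.conj_apply_apply, galoisRepModuleEnd_apply, he σ hσ, e.apply_symm_apply]
        rfl)
  rw [LinearEquiv.charpoly_conj, ZMod.card] at key
  exact key

end Fermat.Agent.ECFrob
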