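import Fermat.Agent.ECFrob.Sep

/-!
# The kernel of a separable endomorphism has cardinality its degree
-/

set_option autoImplicit false

namespace Fermat.Agent.ECFrob

open Polynomial WeierstrassCurve WeierstrassCurve.Affine WeierstrassCurve.Affine.Point

variable {K : Type*} [Field K] [IsAlgClosed K] [DecidableEq K] {W : Affine K}

/-- The polynomial `4 x³ + b₂ x² + 2 b₄ x + b₆`. -/
noncomputable def psiPoly (W : Affine K) : K[X] :=
  C 4 * X ^ 3 + C W.b₂ * X ^ 2 + C (2 * W.b₄) * X + C W.b₆

omit [IsAlgClosed K] [DecidableEq K] in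
lemma psiPoly_ne_zero [W.IsElliptic] : psiPoly W ≠ 0 := by
  intro h
  have h3 : (psiPoly W).coeff 3 = 4 := by
    simp [psiPoly, coeff_X, coeff_C]
  have h2 : (psiPoly W).coeff 2 = W.b₂ := by
    simp [psiPoly, coeff_X, coeff_C]
  have h1 : (psiPoly W).coeff 1 = 2 * W.b₄ := by
    simp [psiPoly, coeff_C]
  have h0 : (psiPoly W).coeff 0 = W.b₆ := by
    simp [psiPoly]
  rw [h, coeff_zero] at h0 h1 h2 h3
  apply W.isUnit_Δ.ne_zero
  rw [WeierstrassCurve.Δ, ← h0, ← h2]
  linear_combination (2 * W.b₄ ^ 3) * h3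

omit [IsAlgClosed K] [DecidableEq K] in
lemma psiPoly_eval (x : K) :
    (psiPoly W).eval x = 4 * x ^ 3 + W.b₂ * x ^ 2 + 2 * W.b₄ * x + W.b₆ := by
  simp [psiPoly]

omit [DecidableEq K] in
/-- Every element of `K` is the `x`-coordinate of a point. -/
lemma exists_point [W.IsElliptic] (x : K) : ∃ y, W.Nonsingular x y := by
  obtain ⟨y, hy⟩ := IsAlgClosed.exists_root (X ^ 2 + C (W.a₁ * x + W.a₃) * X -
    C (x ^ 3 + W.a₂ * x ^ 2 + W.a₄ * x + W.a₆)) (by
      have : (X ^ 2 + C (W.a₁ * x + W.a₃) * X -
        C (x ^ 3 + W.a₂ * x ^ 2 + W.a₄ * x + W.a₆)).natDegree = 2 := by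
        compute_degree!
      intro h
      have h2 := natDegree_eq_of_degree_eq_some h
      rw [this] at h2
      exact absurd h2 (by norm_num))
  refine ⟨y, equation_iff_nonsingular.mp ?_⟩
  rw [equation_iff]
  simp only [IsRoot.def, eval_sub, eval_add, eval_pow, eval_X, eval_mul, eval_C] at hy
  linear_combination hy

omit [IsAlgClosed K] in
/-- The finitely many points over a finite set of `x`-coordinates. -/
lemma finite_points {B : Set K} (hB : B.Finite) :
    {P : W.Point | ∃ x y h, P = some x y h ∧ x ∈ B}.Finite := by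
  have hfib : ∀ x : K, {P : W.Point | ∃ y h, P = some x y h}.Finite := by
    intro x
    by_cases hne : ∃ y, W.Nonsingular x y
    · obtain ⟨y, h⟩ := hne
      refine Set.Finite.subset (Set.toFinite {some x y h, -some x y h}) ?_
      rintro P ⟨y', h', rfl⟩
      exact X_eq_iff.mp rfl
    · push Not at hne
      refine Set.Finite.subset (Set.finite_empty) ?_
      rintro P ⟨y', h', rfl⟩
      exact absurd h' (hne y')
  refine Set.Finite.subset (hB.biUnion fun x _ => hfib x) ?_
  rintro P ⟨x, y, h, rfl, hx⟩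
  exact Set.mem_biUnion hx ⟨y, h, rfl⟩

lemma infinite_points [W.IsElliptic] : Infinite W.Point := by
  haveI : Infinite K := IsAlgClosed.instInfinite
  choose y hy using fun x => exists_point (W := W) x
  refine Infinite.of_injective (fun x : K => some x (y x) (hy x)) ?_
  intro x x' h
  simp only [some.injEq] at h
  exact h.1

/-- An endomorphism `α` is described by the pair `(u 0, u 1)` on `x`-coordinates. -/
def Descr (α : W.Point →+ W.Point) (u : Fin 2 → K[X]) : Prop :=
  ∀ (x₀ y₀ : K) (h₀ : W.Nonsingular x₀ y₀),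
    (u 0).eval x₀ * (α (some x₀ y₀ h₀)).xRep 1 = (u 1).eval x₀ * (α (some x₀ y₀ h₀)).xRep 0

omit [IsAlgClosed K] in
lemma Descr.x_eq {α : W.Point →+ W.Point} {u : Fin 2 → K[X]} {d : ℕ} (hα : Descr α u)
    (hu : IsPrim u d) {x₀ y₀ x y : K} {h₀ : W.Nonsingular x₀ y₀} {h : W.Nonsingular x y}
    (he : α (some x₀ y₀ h₀) = some x y h) :
    (u 1).eval x₀ ≠ 0 ∧ (u 0).eval x₀ = x * (u 1).eval x₀ := by
  have h1 := hα x₀ y₀ h₀
  rw [he] at h1
  simp only [xRep_some, Matrix.cons_val_zero, Matrix.cons_val_one, mul_one] at h1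
  refine ⟨?_, by rw [h1, mul_comm]⟩
  intro h2
  rw [h2, zero_mul] at h1
  obtain ⟨i, hi⟩ := hu.exists_eval_ne x₀
  fin_cases i
  · exact hi h1
  · exact hi h2

omit [IsAlgClosed K] in
lemma Descr.apply_eq {α : W.Point →+ W.Point} {u : Fin 2 → K[X]} (hα : Descr α u)
    {x₀ y₀ x : K} {h₀ : W.Nonsingular x₀ y₀} (h1 : (u 1).eval x₀ ≠ 0)
    (hx : (u 0).eval x₀ = x * (u 1).eval x₀) :
    ∃ y h, α (some x₀ y₀ h₀) = some x y h := by
  have h2 := hα x₀ y₀ h₀
  rcases hP : α (some x₀ y₀ h₀) with _ | ⟨a, b, hab⟩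
  · rw [hP, ← zero_def] at h2
    simp only [xRep_zero, Matrix.cons_val_zero, Matrix.cons_val_one, mul_one, mul_zero] at h2
    exact absurd h2.symm h1
  · rw [hP] at h2
    simp only [xRep_some, Matrix.cons_val_zero, Matrix.cons_val_one, mul_one] at h2
    rw [hx, mul_comm] at h2
    have := mul_left_cancel₀ h1 h2
    subst this
    exact ⟨b, hab, rfl⟩

omit [DecidableEq K] in
lemma finite_eval_set (p : K[X]) (hp : p ≠ 0) : {c : K | p.eval c = 0}.Finite := by
  classical
  refine (p.roots.toFinset.finite_toSet).subset ?_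
  intro c hc
  simp only [Finset.mem_coe, Multiset.mem_toFinset, mem_roots hp]
  exact hc

/-- For a good value `c`, the polynomial `u 0 - c * u 1` has exactly `d` roots. -/
lemma exists_good [W.IsElliptic] {u : Fin 2 → K[X]} {d : ℕ} (hu : IsPrim u d)
    (hw : derivative (u 0) * u 1 - u 0 * derivative (u 1) ≠ 0) :
    ∃ B : Set K, B.Finite ∧ ∀ c ∉ B, (psiPoly W).eval c ≠ 0 ∧
      Nat.card {x : K // (u 0).eval x = c * (u 1).eval x} = d ∧ d ≠ 0 := by
  classical
  set w := derivative (u 0) * u 1 - u 0 * derivative (u 1) with hwdef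
  have hlin : (C ((u 0).coeff d) - X * C ((u 1).coeff d) : K[X]) ≠ 0 := by
    intro h
    have h0 : (u 0).coeff d = 0 := by
      have := congrArg (fun p => coeff p 0) h
      simpa using this
    have h1 : (u 1).coeff d = 0 := by
      have := congrArg (fun p => coeff p 1) h
      simpa [coeff_C] using this
    apply hu.coeff_ne
    ext i
    fin_cases i
    · exact h0
    · exact h1
  refine ⟨{c | (C ((u 0).coeff d) - X * C ((u 1).coeff d)).eval c = 0} ∪
    ((fun x => (u 0).eval x / (u 1).eval x) '' {x | w.eval x = 0}) ∪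
    {c | (psiPoly W).eval c = 0}, ?_, ?_⟩
  · exact ((finite_eval_set _ hlin).union ((finite_eval_set _ hw).image _)).union
      (finite_eval_set _ psiPoly_ne_zero)
  · intro c hc
    simp only [Set.mem_union, not_or] at hc
    obtain ⟨⟨hc1, hc2⟩, hc3⟩ := hc
    have hc1' : (u 0).coeff d - c * (u 1).coeff d ≠ 0 := by
      intro h
      apply hc1
      show (C ((u 0).coeff d) - X * C ((u 1).coeff d)).eval c = 0
      rw [eval_sub, eval_mul, eval_X, eval_C, eval_C]
      exact h
    refine ⟨hc3, ?_, ?_⟩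
    · set f := u 0 - C c * u 1 with hf
      have hcoeff : f.coeff d ≠ 0 := by
        rw [hf, coeff_sub, coeff_C_mul]; exact hc1'
      have hf0 : f ≠ 0 := by
        intro h; rw [h, coeff_zero] at hcoeff; exact hcoeff rfl
      have hdeg : f.natDegree = d := by
        refine le_antisymm ?_ (le_natDegree_of_ne_zero hcoeff)
        exact (natDegree_sub_le_of_le (hu.natDegree_le 0)
          ((natDegree_C_mul_le _ _).trans (hu.natDegree_le 1))).trans (by simp)
      have hsep : f.roots.Nodup := by
        rw [nodup_roots_iff_of_splits hf0 (IsAlgClosed.splits f)]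
        rw [Polynomial.separable_def, Polynomial.isCoprime_iff_aeval_ne_zero_of_isAlgClosed K K]
        intro x
        by_contra hcon
        push Not at hcon
        obtain ⟨h1, h2⟩ := hcon
        simp only [hf, coe_aeval_eq_eval, eval_sub, eval_mul, eval_C, derivative_sub,
          derivative_C_mul] at h1 h2
        have hu1 : (u 1).eval x ≠ 0 := by
          intro h3
          rw [h3, mul_zero, sub_zero] at h1
          obtain ⟨i, hi⟩ := hu.exists_eval_ne x
          fin_cases i
          · exact hi h1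
          · exact hi h3
        apply hc2
        refine ⟨x, ?_, ?_⟩
        · show w.eval x = 0
          rw [hwdef, eval_sub, eval_mul, eval_mul]
          linear_combination (u 1).eval x * h2 - (derivative (u 1)).eval x * h1
        · show (u 0).eval x / (u 1).eval x = c
          rw [div_eq_iff hu1]
          linear_combination h1
      have hcard : f.roots.toFinset.card = d := by
        rw [Multiset.toFinset_card_of_nodup hsep, ← hdeg]
        exact (IsAlgClosed.splits f).natDegree_eq_card_roots.symm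
      rw [← hcard, ← Fintype.card_coe, ← Nat.card_eq_fintype_card]
      refine Nat.card_congr (Equiv.subtypeEquivRight fun x => ?_)
      rw [Multiset.mem_toFinset, mem_roots hf0, IsRoot.def, hf, eval_sub, eval_mul, eval_C,
        sub_eq_zero]
    · rintro rfl
      apply hw
      have h0 := natDegree_eq_zero.mp (Nat.le_zero.mp (hu.natDegree_le 0))
      have h1 := natDegree_eq_zero.mp (Nat.le_zero.mp (hu.natDegree_le 1))
      obtain ⟨a, ha⟩ := h0
      obtain ⟨b, hb⟩ := h1
      rw [hwdef, ← ha, ← hb]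
      simp

/-- Fibre count. -/
lemma card_fibre [W.IsElliptic] {α : W.Point →+ W.Point} {u : Fin 2 → K[X]} {d : ℕ}
    (hα : Descr α u) (hu : IsPrim u d) {c e : K} (hce : W.Nonsingular c e)
    (hc : (psiPoly W).eval c ≠ 0) :
    Nat.card {P : W.Point // α P = some c e hce} =
      Nat.card {x : K // (u 0).eval x = c * (u 1).eval x} := by
  classical
  have hneg : some c e hce ≠ -some c e hce := by
    intro h
    apply hc
    rw [psiPoly_eval, ← FermatAgent.ECVal.psi2_sq hce.1]
    rw [neg_some, some.injEq] at h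
    have h2 := h.2
    rw [negY] at h2
    have : 2 * e + W.a₁ * c + W.a₃ = 0 := by linear_combination h2
    rw [this]; ring
  refine Nat.card_congr (Equiv.ofBijective
    (fun P => ⟨match P.1 with
      | .zero => 0
      | .some x _ _ => x, ?_⟩) ⟨?_, ?_⟩)
  · obtain ⟨P, hP⟩ := P
    rcases P with _ | ⟨x, y, h⟩
    · rw [← zero_def, _root_.map_zero] at hP
      exact absurd hP.symm (some_ne_zero _)
    · exact (hα.x_eq hu hP).2
  · rintro ⟨P, hP⟩ ⟨P', hP'⟩ h
    rcases P with _ | ⟨x, y, hxy⟩
    · rw [← zero_def, _root_.map_zero] at hP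
      exact absurd hP.symm (some_ne_zero _)
    rcases P' with _ | ⟨x', y', hxy'⟩
    · rw [← zero_def, _root_.map_zero] at hP'
      exact absurd hP'.symm (some_ne_zero _)
    simp only [Subtype.mk.injEq] at h ⊢
    rcases X_eq_iff (h₁ := hxy) (h₂ := hxy') |>.mp h with h1 | h1
    · exact h1
    · rw [h1, _root_.map_neg, hP'] at hP
      exact absurd hP.symm hneg
  · rintro ⟨x, hx⟩
    obtain ⟨y, hy⟩ := exists_point (W := W) x
    have hu1 : (u 1).eval x ≠ 0 := by
      intro h0
      rw [h0, mul_zero] at hx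
      obtain ⟨i, hi⟩ := hu.exists_eval_ne x
      fin_cases i
      · exact hi hx
      · exact hi h0
    obtain ⟨b, hb, hα1⟩ := hα.apply_eq (h₀ := hy) hu1 hx
    rcases (X_eq_iff (h₁ := hb) (h₂ := hce)).mp rfl with h1 | h1
    · exact ⟨⟨some x y hy, by rw [hα1, h1]⟩, rfl⟩
    · refine ⟨⟨-some x y hy, by rw [_root_.map_neg, hα1, h1, neg_neg]⟩, ?_⟩
      rfl

/-- The kernel of a separable endomorphism of degree `d` has `d` elements, and the endomorphism is
surjective. -/
theorem card_ker_eq [W.IsElliptic] {α : W.Point →+ W.Point} {u : Fin 2 → K[X]} {d : ℕ}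
    (hα : Descr α u) (hu : IsPrim u d)
    (hw : derivative (u 0) * u 1 - u 0 * derivative (u 1) ≠ 0) :
    Nat.card α.ker = d ∧ Function.Surjective α := by
  classical
  obtain ⟨B, hB, hgood⟩ := exists_good (W := W) hu hw
  have hKinf : Infinite K := IsAlgClosed.instInfinite
  -- good points are in the image
  have himg : ∀ (c e : K) (h : W.Nonsingular c e), c ∉ B → ∃ P, α P = some c e h := by
    intro c e h hc
    obtain ⟨h1, h2, h3⟩ := hgood c hc
    have h4 := card_fibre hα hu h h1
    rw [h2] at h4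
    have : Nonempty {P : W.Point // α P = some c e h} := by
      by_contra hne
      rw [not_nonempty_iff] at hne
      rw [Nat.card_of_isEmpty] at h4
      exact h3 h4.symm
    obtain ⟨⟨P, hP⟩⟩ := this
    exact ⟨P, hP⟩
  constructor
  · obtain ⟨c, hc⟩ := hB.exists_notMem
    obtain ⟨e, he⟩ := exists_point (W := W) c
    obtain ⟨P₀, hP₀⟩ := himg c e he hc
    obtain ⟨h1, h2, h3⟩ := hgood c hc
    rw [← h2, ← card_fibre hα hu he h1]
    refine Nat.card_congr ⟨fun P => ⟨P.1 + P₀, ?_⟩, fun P => ⟨P.1 - P₀, ?_⟩, ?_, ?_⟩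
    · rw [_root_.map_add, hP₀, (AddMonoidHom.mem_ker).mp P.2, zero_add]
    · rw [AddMonoidHom.mem_ker, _root_.map_sub, P.2, hP₀, sub_self]
    · intro P
      simp
    · intro P
      simp
  · intro R
    -- choose `T` with `T` and `R - T` both good
    have hfin : ({P : W.Point | ∃ x y h, P = some x y h ∧ x ∈ B} ∪
        ((fun P => R - P) '' ({P : W.Point | ∃ x y h, P = some x y h ∧ x ∈ B} ∪ {0})) ∪
        {0}).Finite :=
      ((finite_points hB).union (((finite_points hB).union (Set.finite_singleton _)).image _)).union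
        (Set.finite_singleton _)
    haveI : Infinite W.Point := infinite_points
    obtain ⟨T, hT⟩ := hfin.exists_notMem
    simp only [Set.mem_union, not_or] at hT
    obtain ⟨⟨hT1, hT2⟩, hT3⟩ := hT
    have key : ∀ P : W.Point, P ∉ {P : W.Point | ∃ x y h, P = some x y h ∧ x ∈ B} → P ≠ 0 →
        ∃ P', α P' = P := by
      intro P hP hP0
      rcases P with _ | ⟨x, y, h⟩
      · exact absurd rfl hP0
      · exact himg x y h fun hx => hP ⟨x, y, h, rfl, hx⟩
    obtain ⟨P₁, hP₁⟩ := key T hT1 hT3
    obtain ⟨P₂, hP₂⟩ := key (R - T) (by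
      intro h
      apply hT2
      exact ⟨R - T, Or.inl h, by simp⟩) (by
      intro h
      apply hT2
      exact ⟨R - T, Or.inr h, by simp⟩)
    exact ⟨P₂ + P₁, by rw [_root_.map_add, hP₁, hP₂]; simp⟩

end Fermat.Agent.ECFrob
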