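import Fermat.Agent.ECFrob.Prim

/-!
# The addition-subtraction map on `x`-coordinates really computes `(x(P+Q), x(P-Q))`
-/

set_option autoImplicit false

namespace Fermat.Agent.ECFrob

open WeierstrassCurve WeierstrassCurve.Affine WeierstrassCurve.Affine.Point

variable {F : Type*} [Field F] [DecidableEq F] {W : Affine F}

/-- The symmetric square of the `x`-coordinates of `P + Q` and `P - Q`. -/
theorem asub_symv [W.IsElliptic] (P Q : W.Point) :
    ∃ c : F, c ≠ 0 ∧ asub W.b₂ W.b₄ W.b₆ W.b₈ (symv P.xRep Q.xRep) =
      c • symv (P + Q).xRep (P - Q).xRep := by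
  rcases P with _ | ⟨x₁, y₁, h₁⟩
  · rw [← zero_def, zero_add, zero_sub]
    refine ⟨1, one_ne_zero, ?_⟩
    rcases Q with _ | ⟨x₂, y₂, h₂⟩
    · rw [← zero_def, _root_.neg_zero]
      ext i
      fin_cases i <;> simp [asub, symv]
    · rw [xRep_neg]
      ext i
      fin_cases i <;> simp [asub, symv] <;> ring
  rcases Q with _ | ⟨x₂, y₂, h₂⟩
  · rw [← zero_def, add_zero, sub_zero]
    refine ⟨1, one_ne_zero, ?_⟩
    ext i
    fin_cases i <;> simp [asub, symv] <;> ring
  by_cases hx : x₁ = x₂
  · -- P = ± Q
    have hPQ : some x₁ y₁ h₁ = some x₂ y₂ h₂ ∨ some x₁ y₁ h₁ = -some x₂ y₂ h₂ := X_eq_iff.mp hx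
    -- reduce to a statement on the double of `P`
    have key : ∃ c : F, c ≠ 0 ∧ asub W.b₂ W.b₄ W.b₆ W.b₈
        (symv (some x₁ y₁ h₁).xRep (some x₁ y₁ h₁).xRep) =
        c • symv (some x₁ y₁ h₁ + some x₁ y₁ h₁).xRep (0 : W.Point).xRep := by
      have hne : asub W.b₂ W.b₄ W.b₆ W.b₈
        (symv (some x₁ y₁ h₁).xRep (some x₁ y₁ h₁).xRep) ≠ 0 :=
        asub_ne_zero W (symv_ne_zero (xRep_ne_zero _) (xRep_ne_zero _))
      rcases FermatAgent.ECVal.double_cases h₁ with ⟨h0, hψ⟩ | ⟨hψ, α, α', hα, h2, hx2⟩
      · have hsq := FermatAgent.ECVal.psi2_sq h₁.1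
        rw [hψ] at hsq
        refine ⟨x₁ ^ 4 - W.b₄ * x₁ ^ 2 - 2 * W.b₆ * x₁ - W.b₈, ?_, ?_⟩
        · intro hz
          apply hne
          ext i
          fin_cases i
          · simp only [asub, symv, xRep_some]
            simp
            linear_combination hz
          · simp only [asub, symv, xRep_some]
            simp
            linear_combination -hsq
          · simp only [asub, symv, xRep_some]
            simp
            ring
        · rw [h0]
          ext i
          fin_cases i
          · simp only [asub, symv, xRep_some]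
            simp
            ring
          · simp only [asub, symv, xRep_some]
            simp
            linear_combination -hsq
          · simp only [asub, symv, xRep_some]
            simp
            ring
      · refine ⟨(2 * y₁ + W.a₁ * x₁ + W.a₃) ^ 2, pow_ne_zero _ hψ, ?_⟩
        have hsq := FermatAgent.ECVal.psi2_sq h₁.1
        rw [h2]
        ext i
        fin_cases i
        · simp only [asub, symv, xRep_some]
          simp
          linear_combination -hx2
        · simp only [asub, symv, xRep_some]
          simp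
          linear_combination -hsq
        · simp only [asub, symv, xRep_some]
          simp
          ring
    obtain ⟨c, hc, hceq⟩ := key
    refine ⟨c, hc, ?_⟩
    rcases hPQ with h | h
    · rw [← h, sub_self, hceq]
    · have h' : some x₂ y₂ h₂ = -some x₁ y₁ h₁ := by rw [h, neg_neg]
      rw [h', xRep_neg, hceq, add_neg_cancel, sub_neg_eq_add]
      congr 1
      ext i
      fin_cases i <;> simp [symv, mul_comm]
  · obtain ⟨α, α', β, β', hα, hβ, hadd, hsub, hs, hp⟩ :=
      FermatAgent.ECVal.exists_add_sub h₁ h₂ hx
    refine ⟨(x₁ - x₂) ^ 2, pow_ne_zero _ (sub_ne_zero.mpr hx), ?_⟩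
    rw [hadd, hsub]
    ext i
    fin_cases i
    · simp only [asub, symv, xRep_some]
      simp
      linear_combination -hp
    · simp only [asub, symv, xRep_some]
      simp
      linear_combination -hs
    · simp only [asub, symv, xRep_some]
      simp
      ring

end Fermat.Agent.ECFrob
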