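import Fermat.Agent.ECFrob.Main
import Fermat.Agent.Torsion.FiniteLevel

/-!
# The characteristic polynomial of Frobenius on the `ℓ`-torsion
-/

set_option autoImplicit false

namespace Fermat.Agent.ECFrob

open Polynomial WeierstrassCurve WeierstrassCurve.Affine WeierstrassCurve.Affine.Point
open Fermat.Agent.Torsion

section LinearAlgebra

variable {F V : Type*} [Field F] [AddCommGroup V] [Module F V] [Module.Finite F V]

/-- A non-scalar endomorphism of a plane satisfying a monic quadratic equation has the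
corresponding characteristic polynomial. -/
lemma charpoly_eq_of_quadratic (h2 : Module.finrank F V = 2) (φ : V →ₗ[F] V) (t q : F)
    (h : ∀ v, φ (φ v) - t • φ v + q • v = 0) (hns : ∀ c : F, ∃ v, φ v ≠ c • v) :
    φ.charpoly = X ^ 2 - C t * X + C q := by
  have hf : (X ^ 2 - C t * X + C q : F[X]).Monic := by monicity!
  have hfdeg : (X ^ 2 - C t * X + C q : F[X]).natDegree = 2 := by compute_degree!
  have haev : aeval φ (X ^ 2 - C t * X + C q : F[X]) = 0 := by
    ext v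
    simp only [map_add, map_sub, map_mul, map_pow, aeval_X, aeval_C, LinearMap.add_apply,
      LinearMap.sub_apply, LinearMap.zero_apply, Module.algebraMap_end_apply, pow_two,
      Module.End.mul_apply]
    exact h v
  have hdvd : minpoly F φ ∣ X ^ 2 - C t * X + C q := minpoly.dvd F φ haev
  have hdvd2 : minpoly F φ ∣ φ.charpoly := LinearMap.minpoly_dvd_charpoly φ
  have hint : IsIntegral F φ := Algebra.IsIntegral.isIntegral φ
  have hmon := minpoly.monic hint
  have hchar : φ.charpoly.natDegree = 2 := by rw [LinearMap.charpoly_natDegree, h2]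
  have hne1 : (minpoly F φ).natDegree ≠ 1 := by
    intro h1
    obtain ⟨a, ha⟩ : ∃ a, minpoly F φ = X + C a := by
      refine ⟨(minpoly F φ).coeff 0, ?_⟩
      have := hmon.as_sum
      rw [h1] at this
      simpa using this
    have h3 := minpoly.aeval F φ
    rw [ha] at h3
    obtain ⟨v, hv⟩ := hns (-a)
    apply hv
    have h4 := congrArg (fun f : V →ₗ[F] V => f v) h3
    simp only [map_add, aeval_X, aeval_C, LinearMap.add_apply, Module.algebraMap_end_apply,
      LinearMap.zero_apply] at h4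
    rw [neg_smul]
    exact eq_neg_of_add_eq_zero_left h4
  have hne0 : (minpoly F φ).natDegree ≠ 0 := by
    intro h0
    have h1 := hmon.natDegree_eq_zero.mp h0
    have h3 := minpoly.aeval F φ
    rw [h1, map_one] at h3
    haveI : Nontrivial V := Module.nontrivial_of_finrank_pos (R := F) (by rw [h2]; norm_num)
    exact one_ne_zero h3
  have hle : 2 ≤ (minpoly F φ).natDegree := by omega
  have e1 : X ^ 2 - C t * X + C q = minpoly F φ :=
    Polynomial.eq_of_monic_of_dvd_of_natDegree_le hmon hf hdvd (by rw [hfdeg]; exact hle)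
  have e2 : φ.charpoly = minpoly F φ :=
    Polynomial.eq_of_monic_of_dvd_of_natDegree_le hmon φ.charpoly_monic hdvd2
      (by rw [hchar]; exact hle)
  rw [e1, e2]

lemma charpoly_eq_of_scalar (h2 : Module.finrank F V = 2) (φ : V →ₗ[F] V) (t q c : F)
    (h : ∀ v, φ v = c • v) (ht : t = 2 * c) (hq : q = c ^ 2) :
    φ.charpoly = X ^ 2 - C t * X + C q := by
  have e : φ = c • LinearMap.id := by
    ext v; rw [h]; rfl
  have e1 : φ.charpoly = (X - C c) ^ 2 := by
    rw [LinearMap.charpoly_def]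
    have b := Module.finBasisOfFinrankEq F V h2
    rw [← LinearMap.charpoly_def, ← LinearMap.charpoly_toMatrix φ b]
    have e3 : LinearMap.toMatrix b b φ = Matrix.diagonal (fun _ => c) := by
      rw [e, map_smul, LinearMap.toMatrix_id]
      ext i j
      simp [Matrix.one_apply, Matrix.diagonal_apply]
    rw [e3, Matrix.charpoly_diagonal]
    simp
  rw [e1, ht, hq, C_mul, C_pow, map_ofNat]
  ring

end LinearAlgebra

section Torsion

variable {k : Type*} [Field k] [Fintype k] (W : Affine k) [W.IsElliptic] {K : Type*} [Field K]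
  [Algebra k K] [IsAlgClosed K] [DecidableEq K]

omit [IsAlgClosed K] [DecidableEq K] in
lemma natCast_ne_zero_ext {n : ℕ} (hn : (n : k) ≠ 0) : (n : K) ≠ 0 := by
  rw [← map_natCast (algebraMap k K)]
  exact (_root_.map_ne_zero _).mpr hn

lemma card_torsionBy' {n : ℕ} (hn : (n : k) ≠ 0) :
    Nat.card (Submodule.torsionBy ℤ (W⁄K).Point n) = n ^ 2 :=
  card_torsionBy W.isUnit_Δ.ne_zero (natCast_ne_zero_ext hn)

lemma sq_dvd_card_ker {n : ℕ} (hn : (n : k) ≠ 0) (α : (W⁄K).Point →+ (W⁄K).Point)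
    (h : ∀ P : (W⁄K).Point, n • P = 0 → α P = 0) : n ^ 2 ∣ Nat.card α.ker := by
  rw [← card_torsionBy' W (K := K) hn]
  have hle : (Submodule.torsionBy ℤ (W⁄K).Point n).toAddSubgroup ≤ α.ker := by
    intro P hP
    exact h P ((mem_torsionBy_nat_iff n P).mp hP)
  exact AddSubgroup.card_dvd_of_le hle

lemma finrank_torsionBy {ℓ : ℕ} [hℓ : Fact ℓ.Prime] (hℓk : (ℓ : k) ≠ 0) :
    Module.finrank (ZMod ℓ) (Submodule.torsionBy ℤ (W⁄K).Point ℓ) = 2 := by
  have hcard := card_torsionBy' W (K := K) hℓk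
  haveI : Finite (Submodule.torsionBy ℤ (W⁄K).Point ℓ) :=
    Nat.finite_of_card_ne_zero (by rw [hcard]; exact pow_ne_zero 2 hℓ.out.ne_zero)
  have h := Module.natCard_eq_pow_finrank (K := ZMod ℓ) (V := Submodule.torsionBy ℤ (W⁄K).Point ℓ)
  rw [hcard, Nat.card_zmod] at h
  exact (Nat.pow_right_injective hℓ.out.two_le h).symm

lemma coprime_card {ℓ : ℕ} [hℓ : Fact ℓ.Prime] (hℓk : (ℓ : k) ≠ 0) :
    (Fintype.card k : ZMod ℓ) ≠ 0 := by
  obtain ⟨p, hp⟩ := CharP.exists k
  haveI : Fact p.Prime := ⟨CharP.char_is_prime k p⟩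
  obtain ⟨n, hpr, hq⟩ := FiniteField.card k p
  rw [hq, Nat.cast_pow]
  refine pow_ne_zero _ ?_
  rw [Ne, ZMod.natCast_eq_zero_iff, Nat.prime_dvd_prime_iff_eq hℓ.out hpr]
  rintro rfl
  exact hℓk (CharP.cast_eq_zero k ℓ)

/-- The scalar case. -/
lemma scalar_case {ℓ : ℕ} [hℓ : Fact ℓ.Prime] (hℓk : (ℓ : k) ≠ 0) (c₀ : ZMod ℓ)
    (h : ∀ c : ℤ, (c : ZMod ℓ) = c₀ → ∀ P : (W⁄K).Point, ℓ • P = 0 → frob W K P = c • P) :
    (W.traceOfFrobenius : ZMod ℓ) = 2 * c₀ ∧ (Fintype.card k : ZMod ℓ) = c₀ ^ 2 := by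
  set t := W.traceOfFrobenius with ht
  set q : ℤ := (Fintype.card k : ℤ) with hq
  have hq0 : (q : ZMod ℓ) ≠ 0 := by
    rw [hq, Int.cast_natCast]; exact coprime_card hℓk
  have key : ∀ c : ℤ, (c : ZMod ℓ) = c₀ → q ∣ c - 1 → (ℓ : ℤ) ^ 2 ∣ c ^ 2 - c * t + q := by
    intro c hc hc1
    have h1 := card_ker_C_sub_X W K (ε := 1) (Or.inl rfl) hc1
    rw [← ht, ← hq] at h1
    rw [← h1]
    have h2 := sq_dvd_card_ker W (K := K) hℓk (act W K (C c - X)) (fun P hP => by
      rw [act_sub, act_C, act_X, h c hc P hP, sub_self])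
    exact_mod_cast h2
  let m : ℤ := (((c₀ - 1) * (q : ZMod ℓ)⁻¹).val : ℤ)
  have hm : (m : ZMod ℓ) = (c₀ - 1) * (q : ZMod ℓ)⁻¹ := by
    simp only [m]
    rw [Int.cast_natCast, ZMod.natCast_zmod_val]
  let c : ℤ := 1 + q * m
  have hc : (c : ZMod ℓ) = c₀ := by
    simp only [c, Int.cast_add, Int.cast_one, Int.cast_mul, hm]
    field_simp
    ring
  have h1 := key c hc ⟨m, by simp only [c]; ring⟩
  have h2 := key (c + q * ℓ) (by
    rw [Int.cast_add, hc, Int.cast_mul, Int.cast_natCast ℓ, ZMod.natCast_self, mul_zero, add_zero])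
    ⟨m + ℓ, by simp only [c]; ring⟩
  have h3 : (ℓ : ℤ) ^ 2 ∣ ℓ * (q * (2 * c - t)) := by
    have := dvd_sub (dvd_sub h2 h1) (Dvd.intro (q ^ 2) rfl : (ℓ : ℤ) ^ 2 ∣ ℓ ^ 2 * q ^ 2)
    have e : ((c + q * ℓ) ^ 2 - (c + q * ℓ) * t + q - (c ^ 2 - c * t + q) - ℓ ^ 2 * q ^ 2 : ℤ) =
      ℓ * (q * (2 * c - t)) := by ring
    rwa [e] at this
  have h4 : (ℓ : ℤ) ∣ q * (2 * c - t) := by
    rw [pow_two] at h3
    exact Int.dvd_of_mul_dvd_mul_left (by exact_mod_cast hℓ.out.ne_zero) h3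
  have h5 : (q : ZMod ℓ) * (2 * c₀ - t) = 0 := by
    have := (ZMod.intCast_zmod_eq_zero_iff_dvd _ ℓ).mpr h4
    push_cast at this
    rwa [hc] at this
  have h6 : 2 * c₀ - (t : ZMod ℓ) = 0 := (mul_eq_zero.mp h5).resolve_left hq0
  have h7 : c₀ ^ 2 - c₀ * t + (q : ZMod ℓ) = 0 := by
    have := (ZMod.intCast_zmod_eq_zero_iff_dvd _ ℓ).mpr ((dvd_pow_self (ℓ : ℤ) two_ne_zero).trans h1)
    push_cast at this
    rwa [hc] at this
  refine ⟨by linear_combination -h6, ?_⟩
  have : (q : ZMod ℓ) = c₀ ^ 2 := by linear_combination h7 - c₀ * h6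
  rw [← this, hq, Int.cast_natCast]

/-- **Characteristic polynomial of Frobenius on the `ℓ`-torsion.** -/
theorem charpoly_frob {ℓ : ℕ} [hℓ : Fact ℓ.Prime] (hℓk : (ℓ : k) ≠ 0)
    [Module.Finite (ZMod ℓ) (Submodule.torsionBy ℤ (W⁄K).Point ℓ)]
    (f : Module.End (ZMod ℓ) (Submodule.torsionBy ℤ (W⁄K).Point ℓ))
    (hf : ∀ P, (f P : (W⁄K).Point) = frob W K P) :
    LinearMap.charpoly f =
      X ^ 2 - C (W.traceOfFrobenius : ZMod ℓ) * X + C (Fintype.card k : ZMod ℓ) := by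
  have h2 := finrank_torsionBy W (K := K) hℓk
  have hsmul : ∀ (c : ℤ) (P : Submodule.torsionBy ℤ (W⁄K).Point ℓ),
      (((c : ZMod ℓ) • P : Submodule.torsionBy ℤ (W⁄K).Point ℓ) : (W⁄K).Point) =
        c • (P : (W⁄K).Point) := by
    intro c P
    rw [Int.cast_smul_eq_zsmul]
    rfl
  by_cases hns : ∀ c : ZMod ℓ, ∃ v, f v ≠ c • v
  · refine charpoly_eq_of_quadratic h2 f _ _ ?_ hns
    intro v
    apply Subtype.ext
    have e1 := hsmul W.traceOfFrobenius (f v)
    have e2 := hsmul (Fintype.card k : ℤ) v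
    rw [Int.cast_natCast] at e2
    rw [Submodule.coe_add, Submodule.coe_sub, e1, e2, hf, hf]
    exact frob_charEq W K v
  · push Not at hns
    obtain ⟨c₀, hc₀⟩ := hns
    have := scalar_case W (K := K) hℓk c₀ (fun c hc P hP => by
      have h3 := congrArg Subtype.val (hc₀ ⟨P, (mem_torsionBy_nat_iff ℓ P).mpr hP⟩)
      rw [hf, ← hc, hsmul] at h3
      exact h3)
    exact charpoly_eq_of_scalar h2 f _ _ c₀ hc₀ this.1 this.2

end Torsion

end Fermat.Agent.ECFrob
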