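import Fermat.Agent.ECFrob.Count

/-!
# The generic point of an elliptic curve over its function field
-/

set_option autoImplicit false

namespace Fermat.Agent.ECFrob

open Polynomial WeierstrassCurve WeierstrassCurve.Affine WeierstrassCurve.Affine.Point
open scoped Polynomial.Bivariate

section Ring

variable {K : Type*} [Field K] (W : Affine K)

local notation "CR" => W.CoordinateRing

/-- The class of `X` in the coordinate ring. -/
noncomputable def xC : W.CoordinateRing := CoordinateRing.mk W (C X)

/-- The class of `Y` in the coordinate ring. -/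
noncomputable def yC : W.CoordinateRing := CoordinateRing.mk W Y

lemma mk_C (p : K[X]) : CoordinateRing.mk W (C p) = aeval (xC W) p := by
  induction p using Polynomial.induction_on with
  | C a =>
    rw [aeval_C]
    rfl
  | add p q hp hq => rw [C_add, map_add, hp, hq, map_add]
  | monomial n a ih =>
    rw [pow_succ, ← mul_assoc, C_mul, map_mul, ih, map_mul (aeval (xC W)) (C a * X ^ n) X, aeval_X]
    rfl

lemma yC_eq : yC W ^ 2 + algebraMap K _ W.a₁ * xC W * yC W + algebraMap K _ W.a₃ * yC W =
    xC W ^ 3 + algebraMap K _ W.a₂ * xC W ^ 2 + algebraMap K _ W.a₄ * xC W +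
      algebraMap K _ W.a₆ := by
  have h : CoordinateRing.mk W (Y ^ 2 + C (C W.a₁ * X + C W.a₃) * Y -
      C (X ^ 3 + C W.a₂ * X ^ 2 + C W.a₄ * X + C W.a₆)) = 0 := AdjoinRoot.mk_self
  simp only [map_sub, map_add, map_mul, map_pow, mk_C, aeval_C, aeval_X] at h
  simp only [yC]
  linear_combination h

omit [Field K] in
/-- auxiliary -/
lemma evalEval_of_equation {K : Type*} [Field K] {W : Affine K} {x₀ y₀ : K}
    (h : W.Equation x₀ y₀) : W.polynomial.evalEval x₀ y₀ = 0 := h

/-- Evaluation at a point of the curve. -/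
noncomputable def evalPt {x₀ y₀ : K} (h : W.Equation x₀ y₀) : W.CoordinateRing →+* K :=
  AdjoinRoot.evalEval (evalEval_of_equation h)

variable {W}

lemma evalPt_algebraMap {x₀ y₀ : K} (h : W.Equation x₀ y₀) (c : K) :
    evalPt W h (algebraMap K _ c) = c := by
  have : algebraMap K W.CoordinateRing c = CoordinateRing.mk W (C (C c)) := rfl
  rw [this, evalPt, AdjoinRoot.evalEval_mk, evalEval_CC]

lemma evalPt_xC {x₀ y₀ : K} (h : W.Equation x₀ y₀) : evalPt W h (xC W) = x₀ := by
  rw [xC, evalPt, AdjoinRoot.evalEval_mk, evalEval_C, eval_X]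

lemma evalPt_yC {x₀ y₀ : K} (h : W.Equation x₀ y₀) : evalPt W h (yC W) = y₀ := by
  rw [yC, evalPt, AdjoinRoot.evalEval_mk, evalEval_X]

variable (W)

lemma inv_aux : eval₂ (AdjoinRoot.of W.polynomial)
    (-yC W - algebraMap K _ W.a₁ * xC W - algebraMap K _ W.a₃) W.polynomial = 0 := by
  have hof : ∀ p : K[X], AdjoinRoot.of W.polynomial p = aeval (xC W) p := mk_C W
  have e : eval₂ (AdjoinRoot.of W.polynomial)
    (-yC W - algebraMap K _ W.a₁ * xC W - algebraMap K _ W.a₃) (Y ^ 2 + C (C W.a₁ * X + C W.a₃) * Y -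
      C (X ^ 3 + C W.a₂ * X ^ 2 + C W.a₄ * X + C W.a₆)) = 0 := by
    simp only [eval₂_sub, eval₂_add, eval₂_mul, eval₂_pow, eval₂_X, eval₂_C, hof, map_add, map_mul,
      map_pow, aeval_X, aeval_C]
    linear_combination yC_eq W
  exact e

/-- The involution of the coordinate ring. -/
noncomputable def invC : W.CoordinateRing →ₐ[K] W.CoordinateRing :=
  AdjoinRoot.liftAlgHom W.polynomial (AdjoinRoot.ofAlgHom K W.polynomial)
    (-yC W - algebraMap K _ W.a₁ * xC W - algebraMap K _ W.a₃) (inv_aux W)

lemma invC_of (p : K[X]) : invC W (AdjoinRoot.of W.polynomial p) = AdjoinRoot.of W.polynomial p :=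
  AdjoinRoot.liftAlgHom_of W.polynomial _ _ _ _

lemma invC_xC : invC W (xC W) = xC W := invC_of W X

lemma invC_yC : invC W (yC W) = -yC W - algebraMap K _ W.a₁ * xC W - algebraMap K _ W.a₃ :=
  AdjoinRoot.liftAlgHom_root W.polynomial _ _ _

lemma invC_invC (z : W.CoordinateRing) : invC W (invC W z) = z := by
  obtain ⟨p, q, rfl⟩ := CoordinateRing.exists_smul_basis_eq z
  have key : ∀ r : K[X], invC W (CoordinateRing.mk W (C r)) = CoordinateRing.mk W (C r) := by
    intro r
    rw [mk_C, ← aeval_algHom_apply, invC_xC]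
  rw [CoordinateRing.smul, CoordinateRing.smul, mul_one]
  simp only [map_add, map_mul, key]
  have hY : CoordinateRing.mk W Y = yC W := rfl
  rw [hY, invC_yC]
  simp only [map_sub, map_neg, map_mul, invC_xC, invC_yC, AlgHom.commutes]
  ring

lemma invC_injective : Function.Injective (invC W) := fun a b h => by
  rw [← invC_invC W a, h, invC_invC]

lemma aeval_xC_injective : Function.Injective (aeval (R := K) (xC W)) := by
  intro p q h
  rw [← mk_C, ← mk_C, ← sub_eq_zero, ← map_sub, ← C_sub] at h
  have h2 : (p - q) • (1 : W.CoordinateRing) + (0 : K[X]) • CoordinateRing.mk W Y = 0 := by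
    rw [zero_smul, add_zero, CoordinateRing.smul, mul_one, h]
  exact sub_eq_zero.mp (CoordinateRing.smul_basis_eq_zero h2).1

/-- Every element of the coordinate ring is `p + q y`. -/
lemma exists_eq (z : W.CoordinateRing) :
    ∃ p q : K[X], z = aeval (xC W) p + aeval (xC W) q * yC W := by
  obtain ⟨p, q, rfl⟩ := CoordinateRing.exists_smul_basis_eq z
  refine ⟨p, q, ?_⟩
  rw [CoordinateRing.smul, CoordinateRing.smul, mul_one, mk_C, mk_C]
  rfl

lemma eq_zero_of_eq {p q : K[X]} (h : aeval (xC W) p + aeval (xC W) q * yC W = 0) :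
    p = 0 ∧ q = 0 := by
  apply CoordinateRing.smul_basis_eq_zero (W' := W)
  rw [CoordinateRing.smul, CoordinateRing.smul, mul_one, mk_C, mk_C]
  exact h

/-- The norm to `K[X]`. -/
lemma exists_mul_inv (z : W.CoordinateRing) :
    ∃ r : K[X], z * invC W z = aeval (xC W) r ∧ (z ≠ 0 → r ≠ 0) := by
  obtain ⟨p, q, rfl⟩ := exists_eq W z
  have key : ∀ r : K[X], invC W (aeval (xC W) r) = aeval (xC W) r := fun r => by
    rw [← aeval_algHom_apply, invC_xC]
  refine ⟨p ^ 2 - p * q * (C W.a₁ * X + C W.a₃) - q ^ 2 * (X ^ 3 + C W.a₂ * X ^ 2 + C W.a₄ * X +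
    C W.a₆), ?_, ?_⟩
  · rw [map_add, map_mul, key, key, invC_yC]
    simp only [map_sub, map_add, map_mul, map_pow, aeval_X, aeval_C]
    linear_combination (-(aeval (xC W) q) ^ 2) * yC_eq W
  · intro hz hr
    have hmul : (aeval (xC W) p + aeval (xC W) q * yC W) *
      invC W (aeval (xC W) p + aeval (xC W) q * yC W) = 0 := by
      rw [map_add, map_mul, key, key, invC_yC]
      have h2 := congrArg (aeval (xC W)) hr
      simp only [map_sub, map_add, map_mul, map_pow, aeval_X, aeval_C, _root_.map_zero] at h2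
      linear_combination h2 + (-(aeval (xC W) q) ^ 2) * yC_eq W
    rcases mul_eq_zero.mp hmul with h | h
    · exact hz h
    · exact hz ((map_eq_zero_iff _ (invC_injective W)).mp h)

lemma two_yC_ne_zero [W.IsElliptic] :
    2 * yC W + algebraMap K _ W.a₁ * xC W + algebraMap K _ W.a₃ ≠ 0 := by
  intro h
  have h2 : aeval (xC W) (C W.a₁ * X + C W.a₃) + aeval (xC W) (C 2 : K[X]) * yC W = 0 := by
    rw [map_add, map_mul, aeval_C, aeval_C, aeval_C, aeval_X]
    have : algebraMap K W.CoordinateRing 2 = 2 := map_ofNat _ 2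
    rw [this]
    linear_combination h
  obtain ⟨h3, h4⟩ := eq_zero_of_eq W h2
  have htwo : (2 : K) = 0 := C_eq_zero.mp h4
  have ha1 : W.a₁ = 0 := by
    have := congrArg (fun f => coeff f 1) h3
    simpa [coeff_C] using this
  have ha3 : W.a₃ = 0 := by
    have := congrArg (fun f => coeff f 0) h3
    simpa [coeff_C] using this
  apply W.isUnit_Δ.ne_zero
  rw [WeierstrassCurve.Δ, WeierstrassCurve.b₂, WeierstrassCurve.b₄, WeierstrassCurve.b₆,
    WeierstrassCurve.b₈, ha1, ha3]
  linear_combination (-(8 * W.a₂ ^ 2 * (0 ^ 2 * W.a₆ + 4 * W.a₂ * W.a₆ - 0 * 0 * W.a₄ +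
    W.a₂ * 0 ^ 2 - W.a₄ ^ 2)) - 32 * W.a₄ ^ 3 - 27 * 8 * W.a₆ ^ 2 +
    9 * 16 * W.a₂ * W.a₄ * W.a₆) * htwo

end Ring

section Field

variable {K : Type*} [Field K] (W : Affine K)

/-- The generic `x`-coordinate in the function field. -/
noncomputable def xF : W.FunctionField := algebraMap W.CoordinateRing W.FunctionField (xC W)

/-- The generic `y`-coordinate in the function field. -/
noncomputable def yF : W.FunctionField := algebraMap W.CoordinateRing W.FunctionField (yC W)

lemma algC_injective : Function.Injective (algebraMap W.CoordinateRing W.FunctionField) :=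
  IsFractionRing.injective _ _

/-- The involution of the function field. -/
noncomputable def invF : W.FunctionField →ₐ[K] W.FunctionField :=
  IsFractionRing.liftAlgHom (g := (IsScalarTower.toAlgHom K W.CoordinateRing W.FunctionField).comp
    (invC W)) (by
      intro a b h
      exact invC_injective W (algC_injective W h))

lemma invF_algebraMap (z : W.CoordinateRing) :
    invF W (algebraMap W.CoordinateRing W.FunctionField z) =
      algebraMap W.CoordinateRing W.FunctionField (invC W z) := by
  rw [invF, IsFractionRing.liftAlgHom_apply, IsFractionRing.lift_algebraMap]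
  rfl

lemma aeval_xF (p : K[X]) : aeval (xF W) p = algebraMap _ W.FunctionField (aeval (xC W) p) := by
  rw [xF, aeval_algebraMap_apply]

lemma fixF [W.IsElliptic] (z : W.FunctionField) (hz : invF W z = z) :
    ∃ u w : K[X], w ≠ 0 ∧ z * aeval (xF W) w = aeval (xF W) u := by
  obtain ⟨a, b, hb, rfl⟩ := IsFractionRing.div_surjective W.CoordinateRing z
  have hb0 : b ≠ 0 := nonZeroDivisors.ne_zero hb
  obtain ⟨r, hr, hr0⟩ := exists_mul_inv W b
  obtain ⟨p, q, hpq⟩ := exists_eq W (a * invC W b)
  have hbF : algebraMap W.CoordinateRing W.FunctionField b ≠ 0 := by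
    rw [Ne, map_eq_zero_iff _ (algC_injective W)]; exact hb0
  have hmain : (algebraMap W.CoordinateRing W.FunctionField a /
      algebraMap W.CoordinateRing W.FunctionField b) * aeval (xF W) r =
      aeval (xF W) p + aeval (xF W) q * yF W := by
    rw [aeval_xF, aeval_xF, aeval_xF, yF, ← map_mul, ← map_add, ← hpq, ← hr, map_mul, map_mul]
    field_simp
  refine ⟨p, r, hr0 hb0, ?_⟩
  rw [hmain]
  -- apply the involution
  have h2 := congrArg (invF W) hmain
  rw [map_mul, hz, map_add, map_mul] at h2
  have key : ∀ s : K[X], invF W (aeval (xF W) s) = aeval (xF W) s := fun s => by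
    rw [← aeval_algHom_apply, xF, invF_algebraMap, invC_xC]
  rw [key, key, key, hmain] at h2
  have hyF : invF W (yF W) = -yF W - algebraMap K _ W.a₁ * xF W - algebraMap K _ W.a₃ := by
    rw [yF, invF_algebraMap, invC_yC, map_sub, map_sub, map_neg, map_mul,
      ← IsScalarTower.algebraMap_apply, ← IsScalarTower.algebraMap_apply]
    rfl
  rw [hyF] at h2
  have h3 : aeval (xF W) q * (2 * yF W + algebraMap K _ W.a₁ * xF W + algebraMap K _ W.a₃) = 0 := by
    linear_combination h2
  rcases mul_eq_zero.mp h3 with h4 | h4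
  · rw [h4, zero_mul, add_zero]
  · exfalso
    apply two_yC_ne_zero W
    apply algC_injective W
    rw [map_add, map_add, map_mul, map_mul, map_ofNat, _root_.map_zero,
      ← IsScalarTower.algebraMap_apply, ← IsScalarTower.algebraMap_apply]
    exact h4

/-- Places of the function field above a point. -/
lemma exists_place {x₀ y₀ : K} (h : W.Equation x₀ y₀) :
    ∃ A : ValuationSubring W.FunctionField, (∀ c : K, algebraMap K _ c ∈ A) ∧
      xF W - algebraMap K _ x₀ ∈ A.nonunits ∧ yF W - algebraMap K _ y₀ ∈ A.nonunits := by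
  set A₀ : Subring W.FunctionField := (algebraMap W.CoordinateRing W.FunctionField).range
  let e : W.CoordinateRing ≃+* A₀ :=
    RingEquiv.ofBijective (algebraMap W.CoordinateRing W.FunctionField).rangeRestrict
      ⟨fun a b hab => algC_injective W (congrArg Subtype.val hab),
        (algebraMap W.CoordinateRing W.FunctionField).rangeRestrict_surjective⟩
  let ev : A₀ →+* K := (evalPt W h).comp e.symm.toRingHom
  obtain ⟨B, hB, hB2⟩ := Ideal.image_subset_nonunits_valuationSubring (RingHom.ker ev)
    (RingHom.ker_ne_top ev)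
  have hmem : ∀ z : W.CoordinateRing, algebraMap W.CoordinateRing W.FunctionField z ∈ B :=
    fun z => hB ⟨z, rfl⟩
  have hnon : ∀ z : W.CoordinateRing, evalPt W h z = 0 →
      algebraMap W.CoordinateRing W.FunctionField z ∈ B.nonunits := by
    intro z hz
    refine hB2 ⟨e z, ?_, rfl⟩
    show ev (e z) = 0
    simp only [ev, RingHom.comp_apply]
    have : e.symm.toRingHom (e z) = z := e.symm_apply_apply z
    rw [this, hz]
  refine ⟨B, fun c => ?_, ?_, ?_⟩
  · rw [IsScalarTower.algebraMap_apply K W.CoordinateRing W.FunctionField]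
    exact hmem _
  · have := hnon (xC W - algebraMap K _ x₀) (by rw [map_sub, evalPt_xC, evalPt_algebraMap, sub_self])
    rwa [map_sub, ← IsScalarTower.algebraMap_apply] at this
  · have := hnon (yC W - algebraMap K _ y₀) (by rw [map_sub, evalPt_yC, evalPt_algebraMap, sub_self])
    rwa [map_sub, ← IsScalarTower.algebraMap_apply] at this

end Field

end Fermat.Agent.ECFrob
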