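import Fermat.Agent.ECFrob.Frob
import Fermat.Agent.EC.RedHom

/-!
# Specialisation of the generic point
-/

set_option autoImplicit false

namespace Fermat.Agent.ECFrob

open Polynomial WeierstrassCurve WeierstrassCurve.Affine WeierstrassCurve.Affine.Point
open Fermat.Agent.ECRed

section act

variable {k : Type*} [Field k] [Fintype k] (W : Affine k) (L : Type*) [Field L] [DecidableEq L]
  [Algebra k L]

/-- Frobenius as an element of the endomorphism ring. -/
noncomputable def frobEnd : AddMonoid.End (W⁄L).Point := frob W L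

/-- The action of an integral polynomial in Frobenius on points. -/
noncomputable def act (p : ℤ[X]) : (W⁄L).Point →+ (W⁄L).Point :=
  (aeval (frobEnd W L) p : AddMonoid.End (W⁄L).Point)

variable {W L}

lemma act_add (p q : ℤ[X]) (Q : (W⁄L).Point) : act W L (p + q) Q = act W L p Q + act W L q Q := by
  simp only [act, map_add]
  rfl

lemma act_C (a : ℤ) (Q : (W⁄L).Point) : act W L (C a) Q = a • Q := by
  have h : aeval (frobEnd W L) (C a : ℤ[X]) = ((a : ℤ) : AddMonoid.End (W⁄L).Point) := by
    rw [aeval_C]; rfl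
  rw [act, h]
  exact AddMonoid.End.intCast_apply a Q

lemma act_X (Q : (W⁄L).Point) : act W L X Q = frob W L Q := by
  rw [act, aeval_X]
  rfl

lemma act_mul (p q : ℤ[X]) (Q : (W⁄L).Point) : act W L (p * q) Q = act W L p (act W L q Q) := by
  simp only [act, map_mul]
  rfl

lemma act_neg (p : ℤ[X]) (Q : (W⁄L).Point) : act W L (-p) Q = - act W L p Q := by
  simp only [act, map_neg]
  rfl

lemma act_sub (p q : ℤ[X]) (Q : (W⁄L).Point) : act W L (p - q) Q = act W L p Q - act W L q Q := by
  simp only [act, map_sub]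
  rfl

lemma act_one (Q : (W⁄L).Point) : act W L 1 Q = Q := by
  simp only [act, map_one]
  rfl

lemma act_zero (Q : (W⁄L).Point) : act W L 0 Q = 0 := by
  simp only [act, _root_.map_zero]
  rfl

/-- Induction principle for relations compatible with the group law and Frobenius. -/
lemma act_induction {L' : Type*} [Field L'] [DecidableEq L'] [Algebra k L']
    {r : (W⁄L).Point → (W⁄L').Point → Prop} (h0 : r 0 0)
    (hadd : ∀ P P' Q Q', r P Q → r P' Q' → r (P + P') (Q + Q'))
    (hneg : ∀ P Q, r P Q → r (-P) (-Q))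
    (hfrob : ∀ P Q, r P Q → r (frob W L P) (frob W L' Q)) (p : ℤ[X])
    {P : (W⁄L).Point} {Q : (W⁄L').Point} (h : r P Q) : r (act W L p P) (act W L' p Q) := by
  have hz : ∀ (n : ℤ) (P : (W⁄L).Point) (Q : (W⁄L').Point), r P Q → r (n • P) (n • Q) := by
    intro n P Q h
    have hn : ∀ n : ℕ, r (n • P) (n • Q) := by
      intro n
      induction n with
      | zero => simpa using h0
      | succ n ih => rw [succ_nsmul, succ_nsmul]; exact hadd _ _ _ _ ih h
    obtain ⟨m, rfl | rfl⟩ := n.eq_nat_or_neg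
    · simpa using hn m
    · simpa using hneg _ _ (hn m)
  induction p using Polynomial.induction_on with
  | C a => rw [act_C, act_C]; exact hz a _ _ h
  | add p q hp hq => rw [act_add, act_add]; exact hadd _ _ _ _ hp hq
  | monomial n a ih =>
    rw [pow_succ', ← mul_assoc, mul_comm (C a), mul_assoc, act_mul X, act_mul X, act_X, act_X]
    exact hfrob _ _ ih

end act

section

variable {k : Type*} [Field k] [Fintype k] {W : Affine k} {K L κ R Γ₀ : Type*} [Field K] [Field L]
  [Field κ] [CommRing R] [Algebra R L] [LinearOrderedCommGroupWithZero Γ₀]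
  [Algebra k K] [Algebra k L] [Algebra K L] [IsScalarTower k K L] [Algebra k κ] [Algebra K κ]
  [IsScalarTower k K κ] [DecidableEq K] [DecidableEq L] [DecidableEq κ]
  {G : Generic W K L} {v : Valuation L Γ₀} {φ : R →+* κ}

lemma frob_baseChange (Q : (W⁄K).Point) :
    frob W L (Point.map (W' := W) (S := k) (IsScalarTower.toAlgHom k K L) Q) =
      Point.map (W' := W) (S := k) (IsScalarTower.toAlgHom k K L) (frob W K Q) := by
  rcases Q with _ | ⟨x, y, h⟩
  · rfl
  · rw [frob_some, Point.map_some, Point.map_some, frob_some]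
    simp only [some.injEq, frobeniusAlgHom_apply]
    exact ⟨(map_pow (IsScalarTower.toAlgHom k K L) x _).symm,
      (map_pow (IsScalarTower.toAlgHom k K L) y _).symm⟩

lemma act_baseChange (p : ℤ[X]) (Q : (W⁄K).Point) :
    act W L p (Point.map (W' := W) (S := k) (IsScalarTower.toAlgHom k K L) Q) =
      Point.map (W' := W) (S := k) (IsScalarTower.toAlgHom k K L) (act W K p Q) := by
  refine act_induction (W := W) (L := L) (L' := K)
    (r := fun A B => A = Point.map (W' := W) (S := k) (IsScalarTower.toAlgHom k K L) B)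
    ?_ ?_ ?_ ?_ p rfl
  · simp
  · rintro P P' Q Q' rfl rfl
    rw [_root_.map_add]
  · rintro P Q rfl
    rw [_root_.map_neg]
  · rintro P Q rfl
    exact frob_baseChange Q

include G in
lemma act_mem_odd (p : ℤ[X]) : act W L p G.P ∈ G.odd := by
  have := act_induction (W := W) (L := L) (L' := L) (r := fun A _ => A ∈ G.odd)
    (zero_mem _) (fun _ _ _ _ h h' => add_mem h h') (fun _ _ h => neg_mem h)
    (fun _ _ h => Generic.frob_mem_odd h) p (Q := G.P) G.P_mem_odd
  exact this

lemma redCurve (hφ : ∀ c : K, RedTo φ (algebraMap K L c) (algebraMap K κ c)) :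
    RedCurve φ (W⁄L) (W⁄κ) := by
  have key : ∀ c : k, RedTo φ (algebraMap k L c) (algebraMap k κ c) := fun c => by
    rw [IsScalarTower.algebraMap_apply k K L, IsScalarTower.algebraMap_apply k K κ]
    exact hφ _
  exact ⟨key _, key _, key _, key _, key _⟩

lemma isRed_frob {Q : (W⁄L).Point} {Q' : (W⁄κ).Point} (h : IsRed v φ Q Q') :
    IsRed v φ (frob W L Q) (frob W κ Q') := by
  rcases h with ⟨rfl, rfl⟩ | ⟨hP, hx, rfl⟩ | ⟨hP, hQ, hx, hy⟩
  · rw [_root_.map_zero, _root_.map_zero]; exact isRed_zero_zero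
  · rw [_root_.map_zero]
    rcases Q with _ | ⟨x, y, h⟩
    · exact absurd rfl hP
    · rw [frob_some]
      refine Or.inr (Or.inl ⟨some_ne_zero _, ?_, rfl⟩)
      simp only [xc_some, frobeniusAlgHom_apply, map_pow] at hx ⊢
      exact one_lt_pow₀ hx Fintype.card_ne_zero
  · rcases Q with _ | ⟨x, y, h⟩
    · exact absurd rfl hP
    rcases Q' with _ | ⟨x', y', h'⟩
    · exact absurd rfl hQ
    rw [frob_some, frob_some, isRed_some_some_iff]
    exact ⟨hx.pow _, hy.pow _⟩

lemma isRed_act (hp : IsPlace v φ)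
    (hφ : ∀ c : K, RedTo φ (algebraMap K L c) (algebraMap K κ c)) (p : ℤ[X])
    {Q : (W⁄L).Point} {Q' : (W⁄κ).Point} (h : IsRed v φ Q Q') :
    IsRed v φ (act W L p Q) (act W κ p Q') :=
  act_induction (r := fun A B => IsRed v φ A B) isRed_zero_zero
    (fun _ _ _ _ h h' => h.add (redCurve (K := K) hφ) hp h')
    (fun _ _ h => h.neg (redCurve (K := K) hφ)) (fun _ _ h => isRed_frob h) p h

omit [DecidableEq K] in
lemma redTo_aeval (hφ : ∀ c : K, RedTo φ (algebraMap K L c) (algebraMap K κ c)) {x₀ : K}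
    (hx : RedTo φ G.ξ (algebraMap K κ x₀)) (p : K[X]) :
    RedTo φ (aeval G.ξ p) (algebraMap K κ (p.eval x₀)) := by
  induction p using Polynomial.induction_on with
  | C a => simpa using hφ a
  | add p q hp hq => simpa using hp.add hq
  | monomial n a ih =>
    simp only [map_mul, aeval_C, map_pow, aeval_X, eval_mul, eval_C, eval_pow, eval_X]
    exact (hφ a).mul (hx.pow _)

/-- Specialisation of a representation of the `x`-coordinate. -/
lemma rep_spec (hp : IsPlace v φ) (hφ : ∀ c : K, RedTo φ (algebraMap K L c) (algebraMap K κ c))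
    {x₀ y₀ : K} (h₀ : (W⁄K).Nonsingular x₀ y₀) (hx : RedTo φ G.ξ (algebraMap K κ x₀))
    (hy : RedTo φ G.η (algebraMap K κ y₀)) (p : ℤ[X]) {u : Fin 2 → K[X]} {d : ℕ}
    (hu : G.IsRep (act W L p G.P) u d) :
    (u 0).eval x₀ * (act W K p (some x₀ y₀ h₀)).xRep 1 =
      (u 1).eval x₀ * (act W K p (some x₀ y₀ h₀)).xRep 0 := by
  have hP : IsRed v φ G.P (Point.map (W' := W) (S := k) (IsScalarTower.toAlgHom k K κ)
      (some x₀ y₀ h₀)) := by
    rw [Generic.P, Point.map_some, isRed_some_some_iff]
    exact ⟨hx, hy⟩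
  have hred := isRed_act hp hφ p hP
  rw [act_baseChange] at hred
  obtain ⟨hprim, hrep⟩ := hu
  have r0 := redTo_aeval hφ hx (u 0)
  have r1 := redTo_aeval hφ hx (u 1)
  have hinj : Function.Injective (algebraMap K κ) := (algebraMap K κ).injective
  generalize act W L p G.P = Q at *
  generalize act W K p (some x₀ y₀ h₀) = S at *
  rcases hred with ⟨rfl, hS⟩ | ⟨hQ, hxQ, hS⟩ | ⟨hQ, hS, hxQ, -⟩
  · have hS' : S = 0 := Point.map_injective _ (by rw [hS, _root_.map_zero])
    subst hS'
    have h1 : u 1 = 0 := by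
      have : aeval G.ξ (u 1) = 0 := by simpa using hrep.symm
      exact Generic.aeval_eq_zero.mp this
    simp [h1]
  · have hS' : S = 0 := Point.map_injective _ (by rw [hS, _root_.map_zero])
    subst hS'
    rcases Q with _ | ⟨x, y, hxy⟩
    · exact absurd rfl hQ
    simp only [xRep_some, xRep_zero, Matrix.cons_val_zero, Matrix.cons_val_one, mul_one,
      mul_zero, xc_some] at *
    by_contra hne
    have hne' : (u 1).eval x₀ ≠ 0 := fun h => hne h.symm
    have hv1 : v (aeval G.ξ (u 1)) = 1 := (hp.eq_one_iff r1).mpr (by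
      rw [Ne, map_eq_zero_iff _ hinj]; exact hne')
    have hv0 : v (aeval G.ξ (u 0)) ≤ 1 := hp.le_one r0
    rw [hrep, map_mul, hv1, one_mul] at hv0
    exact absurd hv0 (not_le.mpr hxQ)
  · rcases Q with _ | ⟨x, y, hxy⟩
    · exact absurd rfl hQ
    rcases S with _ | ⟨x', y', hxy'⟩
    · exact absurd (by rw [← zero_def]; exact _root_.map_zero _) hS
    rw [Point.map_some] at hxQ
    simp only [xRep_some, Matrix.cons_val_zero, Matrix.cons_val_one, mul_one, xc_some] at *
    apply hinj
    rw [map_mul]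
    have h2 : RedTo φ (aeval G.ξ (u 0)) (algebraMap K κ ((u 1).eval x₀) * algebraMap K κ x') := by
      rw [hrep]
      exact r1.mul hxQ
    exact hp.unique r0 h2

end

end Fermat.Agent.ECFrob
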