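import Fermat.Agent.ECFrob.FunField
import Fermat.Agent.ECFrob.Spec

/-!
# The generic point of an elliptic curve, and specialisation to all points
-/

set_option autoImplicit false

namespace Fermat.Agent.ECFrob

open Polynomial WeierstrassCurve WeierstrassCurve.Affine WeierstrassCurve.Affine.Point
open Fermat.Agent.ECRed

section

variable {k : Type*} [Field k] (W : Affine k) (K : Type*) [Field K] [Algebra k K]

lemma baseChange_a (i : k) : algebraMap k (W⁄K).FunctionField i =
    algebraMap K (W⁄K).FunctionField (algebraMap k K i) :=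
  IsScalarTower.algebraMap_apply k K _ i

lemma equation_gen : (W⁄(W⁄K).FunctionField).Equation (xF (W⁄K)) (yF (W⁄K)) := by
  rw [equation_iff]
  have h := congrArg (algebraMap (W⁄K).CoordinateRing (W⁄K).FunctionField) (yC_eq (W⁄K))
  simp only [map_add, map_mul, map_pow, ← IsScalarTower.algebraMap_apply] at h
  have h₁ : (W⁄(W⁄K).FunctionField).a₁ = algebraMap K _ (W⁄K).a₁ := baseChange_a W K _
  have h₂ : (W⁄(W⁄K).FunctionField).a₂ = algebraMap K _ (W⁄K).a₂ := baseChange_a W K _
  have h₃ : (W⁄(W⁄K).FunctionField).a₃ = algebraMap K _ (W⁄K).a₃ := baseChange_a W K _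
  have h₄ : (W⁄(W⁄K).FunctionField).a₄ = algebraMap K _ (W⁄K).a₄ := baseChange_a W K _
  have h₆ : (W⁄(W⁄K).FunctionField).a₆ = algebraMap K _ (W⁄K).a₆ := baseChange_a W K _
  rw [h₁, h₂, h₃, h₄, h₆]
  exact h

/-- The generic point of an elliptic curve, over the function field. -/
noncomputable def genPt [W.IsElliptic] : Generic W K (W⁄K).FunctionField where
  ξ := xF (W⁄K)
  η := yF (W⁄K)
  ns := equation_iff_nonsingular.mp (equation_gen W K)
  inj := fun p q h => by
    rw [aeval_xF, aeval_xF] at h
    exact aeval_xC_injective (W⁄K) (algC_injective (W⁄K) h)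
  ι := invF (W⁄K)
  ι_ξ := by rw [xF, invF_algebraMap, invC_xC]
  ι_η := by
    rw [yF, invF_algebraMap, invC_yC, negY, map_sub, map_sub, map_neg, map_mul,
      ← IsScalarTower.algebraMap_apply, ← IsScalarTower.algebraMap_apply, xF]
    have h₁ : (W⁄(W⁄K).FunctionField).a₁ = algebraMap K _ (W⁄K).a₁ := baseChange_a W K _
    have h₃ : (W⁄(W⁄K).FunctionField).a₃ = algebraMap K _ (W⁄K).a₃ := baseChange_a W K _
    rw [h₁, h₃]
  fix := fixF (W⁄K)

end

section

variable {k : Type*} [Field k] [Fintype k] {W : Affine k} [W.IsElliptic] {K : Type*} [Field K]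
  [Algebra k K] [DecidableEq K] [DecidableEq (W⁄K).FunctionField]

/-- Places of the function field above a point of the curve. -/
theorem exists_spec {x₀ y₀ : K} (h₀ : (W⁄K).Nonsingular x₀ y₀) (p : ℤ[X]) {u : Fin 2 → K[X]}
    {d : ℕ} (hu : (genPt W K).IsRep (act W (W⁄K).FunctionField p (genPt W K).P) u d) :
    (u 0).eval x₀ * (act W K p (some x₀ y₀ h₀)).xRep 1 =
      (u 1).eval x₀ * (act W K p (some x₀ y₀ h₀)).xRep 0 := by
  obtain ⟨A, hA, hx, hy⟩ := exists_place (W⁄K) h₀.1
  let res : A →+* IsLocalRing.ResidueField A := IsLocalRing.residue A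
  let j₀ : K →+* A := (algebraMap K (W⁄K).FunctionField).codRestrict A.toSubring hA
  let j : K →+* IsLocalRing.ResidueField A := res.comp j₀
  letI : Algebra K (IsLocalRing.ResidueField A) := j.toAlgebra
  letI : Algebra k (IsLocalRing.ResidueField A) := (j.comp (algebraMap k K)).toAlgebra
  haveI : IsScalarTower k K (IsLocalRing.ResidueField A) := IsScalarTower.of_algebraMap_eq fun _ => rfl
  classical
  have hφ : ∀ c : K, RedTo res (algebraMap K (W⁄K).FunctionField c)
      (algebraMap K (IsLocalRing.ResidueField A) c) := fun c => ⟨j₀ c, rfl, rfl⟩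
  have hp : IsPlace A.valuation res := isPlace_valuationSubring A
  have hnon : ∀ z : (W⁄K).FunctionField, z ∈ A.nonunits → RedTo res z 0 := by
    intro z hz
    rw [hp.redTo_zero_iff]
    exact (A.mem_nonunits_iff).mp hz
  have hx' : RedTo res (genPt W K).ξ (algebraMap K (IsLocalRing.ResidueField A) x₀) := by
    have := (hnon _ hx).add (hφ x₀)
    rwa [sub_add_cancel, zero_add] at this
  have hy' : RedTo res (genPt W K).η (algebraMap K (IsLocalRing.ResidueField A) y₀) := by
    have := (hnon _ hy).add (hφ y₀)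
    rwa [sub_add_cancel, zero_add] at this
  exact rep_spec hp hφ h₀ hx' hy' p hu

end

end Fermat.Agent.ECFrob
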