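import Fermat.Agent.ECFrob.AddSub

/-!
# Heights of points over the function field and the exact parallelogram law
-/

set_option autoImplicit false

namespace Fermat.Agent.ECFrob

open Polynomial WeierstrassCurve WeierstrassCurve.Affine WeierstrassCurve.Affine.Point

instance instIsEllipticBaseChange {R A : Type*} [CommRing R] [CommRing A] [Algebra R A]
    (W : Affine R) [W.IsElliptic] : (W⁄A).IsElliptic :=
  inferInstanceAs (WeierstrassCurve.map W (algebraMap R A)).IsElliptic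

/-- An abstract function field of a Weierstrass curve: a field `L` with a generic point
`(ξ, η)`, and the involution `ι` of `L` induced by `-1`, with fixed field `K(ξ)`. -/
structure Generic {k : Type*} [Field k] (W : Affine k) (K L : Type*) [Field K] [Field L]
    [Algebra k K] [Algebra k L] [Algebra K L] [IsScalarTower k K L] where
  ξ : L
  η : L
  ns : (W⁄L).Nonsingular ξ η
  inj : Function.Injective (aeval (R := K) ξ)
  ι : L →ₐ[K] L
  ι_ξ : ι ξ = ξ
  ι_η : ι η = (W⁄L).negY ξ η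
  fix : ∀ z, ι z = z → ∃ u w : K[X], w ≠ 0 ∧ z * aeval ξ w = aeval ξ u

namespace Generic

variable {k : Type*} [Field k] {W : Affine k} {K L : Type*} [Field K] [Field L]
  [Algebra k K] [Algebra k L] [Algebra K L] [IsScalarTower k K L] [DecidableEq L]
  (G : Generic W K L)

/-- The generic point. -/
def P : (W⁄L).Point := some G.ξ G.η G.ns

/-- The action of `ι` on points. -/
noncomputable def conj : (W⁄L).Point →+ (W⁄L).Point :=
  Point.map (W' := W) (S := k) (G.ι.restrictScalars k)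

/-- The points `Q` with `ι Q = -Q`. -/
def odd : AddSubgroup (W⁄L).Point where
  carrier := {Q | G.conj Q = -Q}
  zero_mem' := by simp
  add_mem' {a b} ha hb := by
    simp only [Set.mem_ofPred_eq] at *
    rw [map_add, ha, hb, neg_add]
  neg_mem' {a} ha := by
    simp only [Set.mem_ofPred_eq] at *
    rw [map_neg, ha]

lemma mem_odd {Q : (W⁄L).Point} : Q ∈ G.odd ↔ G.conj Q = -Q := Iff.rfl

lemma P_mem_odd : G.P ∈ G.odd := by
  rw [mem_odd, conj, P, Point.map_some, neg_some]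
  congr 1
  · exact G.ι_ξ
  · exact G.ι_η

/-- `v` represents the `x`-coordinate of `Q`, as a rational function in `ξ`, of degree `d`. -/
def IsRep (Q : (W⁄L).Point) (v : Fin 2 → K[X]) (d : ℕ) : Prop :=
  IsPrim v d ∧ aeval G.ξ (v 0) * Q.xRep 1 = aeval G.ξ (v 1) * Q.xRep 0

variable {G}

lemma aeval_eq_zero {p : K[X]} : aeval G.ξ p = 0 ↔ p = 0 :=
  map_eq_zero_iff _ G.inj

lemma IsRep.smul_vec {Q : (W⁄L).Point} {v : Fin 2 → K[X]} {d : ℕ} (h : G.IsRep Q v d) :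
    ∃ c : L, c ≠ 0 ∧ (fun i => aeval G.ξ (v i)) = c • Q.xRep := by
  have hv : (aeval G.ξ (v 0)) ≠ 0 ∨ (aeval G.ξ (v 1)) ≠ 0 := by
    by_contra hc
    push Not at hc
    rw [aeval_eq_zero, aeval_eq_zero] at hc
    apply h.1.coeff_ne
    ext i
    fin_cases i
    · simp [hc.1]
    · simp [hc.2]
  have hx := h.2
  rcases Q with _ | ⟨x, y, hxy⟩
  · simp only [← zero_def, xRep_zero] at *
    simp at hx
    rw [eq_comm, aeval_eq_zero] at hx
    refine ⟨aeval G.ξ (v 0), hv.resolve_right (by rw [hx]; simp), ?_⟩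
    ext i
    fin_cases i <;> simp [hx]
  · simp only [xRep_some] at *
    simp at hx
    refine ⟨aeval G.ξ (v 1), ?_, ?_⟩
    · rcases hv with hv | hv
      · rw [hx] at hv
        exact left_ne_zero_of_mul hv
      · exact hv
    · ext i
      fin_cases i <;> simp [hx]

lemma isRep_iff {Q : (W⁄L).Point} {v : Fin 2 → K[X]} {d : ℕ} :
    G.IsRep Q v d ↔ IsPrim v d ∧ ∃ c : L, c ≠ 0 ∧ (fun i => aeval G.ξ (v i)) = c • Q.xRep := by
  refine ⟨fun h => ⟨h.1, h.smul_vec⟩, fun ⟨h, c, hc, he⟩ => ⟨h, ?_⟩⟩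
  have h0 : aeval G.ξ (v 0) = c * Q.xRep 0 := congrFun he 0
  have h1 : aeval G.ξ (v 1) = c * Q.xRep 1 := congrFun he 1
  rw [h0, h1]
  ring

theorem exists_isRep {Q : (W⁄L).Point} (hQ : Q ∈ G.odd) : ∃ d v, G.IsRep Q v d := by
  classical
  rcases Q with _ | ⟨x, y, hxy⟩
  · refine ⟨0, ![1, 0], ⟨?_, ?_⟩⟩
    · constructor
      · intro x h
        have := congrFun h 0
        simp at this
      · intro i
        fin_cases i <;> simp
      · intro h
        have := congrFun h 0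
        simp at this
    · rw [← zero_def]
      simp
  · rw [mem_odd, conj, Point.map_some, neg_some] at hQ
    have hx : G.ι x = x := by
      simp only [some.injEq] at hQ
      exact hQ.1
    obtain ⟨u, w, hw, huw⟩ := G.fix x hx
    obtain ⟨a, ha⟩ := gcd_dvd_left u w
    obtain ⟨b, hb⟩ := gcd_dvd_right u w
    have hg : gcd u w ≠ 0 := by
      intro h0
      rw [h0, zero_mul] at hb
      exact hw hb
    have hab : IsCoprime a b := by
      have h1 : gcd (gcd u w * a) (gcd u w * b) = normalize (gcd u w) * gcd a b :=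
        gcd_mul_left _ _ _
      rw [← ha, ← hb, normalize_gcd] at h1
      have h2 : gcd a b = 1 := by
        have := mul_left_cancel₀ hg (a := gcd u w) (b := 1) (c := gcd a b)
          (by rw [mul_one]; exact h1)
        exact this.symm
      exact (gcd_isUnit_iff a b).mp (by rw [h2]; exact isUnit_one)
    refine ⟨_, ![a, b], isPrim_of_isCoprime hab, ?_⟩
    simp only [xRep_some, Matrix.cons_val_zero, Matrix.cons_val_one]
    have hg' : aeval G.ξ (gcd u w) ≠ 0 := by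
      rw [Ne, aeval_eq_zero]; exact hg
    apply mul_left_cancel₀ hg'
    have e1 : aeval G.ξ u = aeval G.ξ (gcd u w) * aeval G.ξ a := by
      rw [← map_mul, ← ha]
    have e2 : aeval G.ξ w = aeval G.ξ (gcd u w) * aeval G.ξ b := by
      rw [← map_mul, ← hb]
    rw [e1, e2] at huw
    linear_combination -huw

lemma aeval_symv (v w : Fin 2 → K[X]) :
    (fun i => aeval G.ξ (symv v w i)) =
      symv (fun i => aeval G.ξ (v i)) (fun i => aeval G.ξ (w i)) := by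
  ext i
  fin_cases i <;> simp [symv]

lemma symv_smul {R : Type*} [CommRing R] (a b : R) (v w : Fin 2 → R) :
    symv (a • v) (b • w) = (a * b) • symv v w := by
  ext i
  fin_cases i <;> simp [symv] <;> ring

lemma asub_smul {R : Type*} [CommRing R] (b₂ b₄ b₆ b₈ c : R) (v : Fin 3 → R) :
    asub b₂ b₄ b₆ b₈ (c • v) = (c ^ 2) • asub b₂ b₄ b₆ b₈ v := by
  ext i
  fin_cases i <;> simp [asub] <;> ring

omit [DecidableEq L] in
lemma aeval_asub (v : Fin 3 → K[X]) :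
    (fun i => aeval G.ξ (asub (C (W⁄K).b₂) (C (W⁄K).b₄) (C (W⁄K).b₆) (C (W⁄K).b₈) v i)) =
      asub (W⁄L).b₂ (W⁄L).b₄ (W⁄L).b₆ (W⁄L).b₈ (fun i => aeval G.ξ (v i)) := by
  have h₂ : algebraMap K L (W⁄K).b₂ = (W⁄L).b₂ := by
    simp only [WeierstrassCurve.baseChange, map_b₂, ← IsScalarTower.algebraMap_apply]
  have h₄ : algebraMap K L (W⁄K).b₄ = (W⁄L).b₄ := by
    simp only [WeierstrassCurve.baseChange, map_b₄, ← IsScalarTower.algebraMap_apply]
  have h₆ : algebraMap K L (W⁄K).b₆ = (W⁄L).b₆ := by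
    simp only [WeierstrassCurve.baseChange, map_b₆, ← IsScalarTower.algebraMap_apply]
  have h₈ : algebraMap K L (W⁄K).b₈ = (W⁄L).b₈ := by
    simp only [WeierstrassCurve.baseChange, map_b₈, ← IsScalarTower.algebraMap_apply]
  ext i
  fin_cases i <;> simp [asub, h₂, h₄, h₆, h₈, map_ofNat]

/-- The exact parallelogram law. -/
theorem parallelogram [IsAlgClosed K] [W.IsElliptic] {Q₁ Q₂ : (W⁄L).Point}
    {v₁ v₂ v₃ v₄ : Fin 2 → K[X]} {d₁ d₂ d₃ d₄ : ℕ} (h₁ : G.IsRep Q₁ v₁ d₁)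
    (h₂ : G.IsRep Q₂ v₂ d₂) (h₃ : G.IsRep (Q₁ + Q₂) v₃ d₃) (h₄ : G.IsRep (Q₁ - Q₂) v₄ d₄) :
    d₃ + d₄ = 2 * d₁ + 2 * d₂ := by
  obtain ⟨c₁, hc₁, e₁⟩ := h₁.smul_vec
  obtain ⟨c₂, hc₂, e₂⟩ := h₂.smul_vec
  obtain ⟨c₃, hc₃, e₃⟩ := h₃.smul_vec
  obtain ⟨c₄, hc₄, e₄⟩ := h₄.smul_vec
  obtain ⟨c, hc, e⟩ := asub_symv Q₁ Q₂
  have hA : IsPrim (symv v₃ v₄) (d₃ + d₄) := h₃.1.symv h₄.1
  have hB := (h₁.1.symv h₂.1).asub (W⁄K)
  have key : ∀ i j, symv v₃ v₄ i *
      asub (C (W⁄K).b₂) (C (W⁄K).b₄) (C (W⁄K).b₆) (C (W⁄K).b₈) (symv v₁ v₂) j =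
      symv v₃ v₄ j *
      asub (C (W⁄K).b₂) (C (W⁄K).b₄) (C (W⁄K).b₆) (C (W⁄K).b₈) (symv v₁ v₂) i := by
    have E₁ : (fun i => aeval G.ξ (symv v₃ v₄ i)) =
        (c₃ * c₄) • symv (Q₁ + Q₂).xRep (Q₁ - Q₂).xRep := by
      rw [aeval_symv, e₃, e₄, symv_smul]
    have E₂ : (fun i => aeval G.ξ (asub (C (W⁄K).b₂) (C (W⁄K).b₄) (C (W⁄K).b₆) (C (W⁄K).b₈)
        (symv v₁ v₂) i)) = ((c₁ * c₂) ^ 2 * c) • symv (Q₁ + Q₂).xRep (Q₁ - Q₂).xRep := by
      rw [aeval_asub, aeval_symv, e₁, e₂, symv_smul, asub_smul, e, smul_smul]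
    intro i j
    apply G.inj
    rw [map_mul, map_mul]
    have E₁i := congrFun E₁ i
    have E₁j := congrFun E₁ j
    have E₂i := congrFun E₂ i
    have E₂j := congrFun E₂ j
    simp only [Pi.smul_apply, smul_eq_mul] at E₁i E₁j E₂i E₂j
    rw [E₁i, E₁j, E₂i, E₂j]
    ring
  have := IsPrim.degree_unique hA hB key
  omega

lemma IsRep.unique [IsAlgClosed K] {Q : (W⁄L).Point} {v w : Fin 2 → K[X]} {d e : ℕ}
    (h : G.IsRep Q v d) (h' : G.IsRep Q w e) : d = e := by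
  obtain ⟨c₁, hc₁, e₁⟩ := h.smul_vec
  obtain ⟨c₂, hc₂, e₂⟩ := h'.smul_vec
  refine IsPrim.degree_unique h.1 h'.1 fun i j => ?_
  apply G.inj
  rw [map_mul, map_mul]
  have e₁i := congrFun e₁ i
  have e₁j := congrFun e₁ j
  have e₂i := congrFun e₂ i
  have e₂j := congrFun e₂ j
  simp only [Pi.smul_apply, smul_eq_mul] at e₁i e₁j e₂i e₂j
  rw [e₁i, e₁j, e₂i, e₂j]
  ring

variable (G) in
open Classical in
/-- The degree of the rational function `x(Q)`. -/
noncomputable def ht (Q : (W⁄L).Point) : ℕ :=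
  if h : ∃ d v, G.IsRep Q v d then h.choose else 0

lemma ht_eq [IsAlgClosed K] {Q : (W⁄L).Point} {v : Fin 2 → K[X]} {d : ℕ}
    (h : G.IsRep Q v d) : G.ht Q = d := by
  have hex : ∃ d v, G.IsRep Q v d := ⟨d, v, h⟩
  rw [ht, dif_pos hex]
  obtain ⟨w, hw⟩ := hex.choose_spec
  exact hw.unique h

lemma exists_isRep_ht [IsAlgClosed K] {Q : (W⁄L).Point} (hQ : Q ∈ G.odd) :
    ∃ v, G.IsRep Q v (G.ht Q) := by
  obtain ⟨d, v, h⟩ := exists_isRep hQ
  exact ⟨v, by rw [ht_eq h]; exact h⟩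

theorem ht_add_add_ht_sub [IsAlgClosed K] [W.IsElliptic] {Q₁ Q₂ : (W⁄L).Point}
    (h₁ : Q₁ ∈ G.odd) (h₂ : Q₂ ∈ G.odd) :
    G.ht (Q₁ + Q₂) + G.ht (Q₁ - Q₂) = 2 * G.ht Q₁ + 2 * G.ht Q₂ := by
  obtain ⟨v₁, h₁'⟩ := exists_isRep_ht h₁
  obtain ⟨v₂, h₂'⟩ := exists_isRep_ht h₂
  obtain ⟨v₃, h₃'⟩ := exists_isRep_ht (add_mem h₁ h₂)
  obtain ⟨v₄, h₄'⟩ := exists_isRep_ht (sub_mem h₁ h₂)
  exact parallelogram h₁' h₂' h₃' h₄'

lemma ht_P [IsAlgClosed K] : G.ht G.P = 1 := by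
  refine ht_eq (v := ![X, 1]) ⟨?_, ?_⟩
  · have := isPrim_of_isCoprime (K := K) (u := X) (w := 1) isCoprime_one_right
    simpa using this
  · simp [P]

end Generic

end Fermat.Agent.ECFrob
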