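import Mathlib
import Fermat.Agent.ECVal.XLine

/-!
# Primitive vectors of polynomials and the exact parallelogram law for `x`-coordinates

Part of the elementary theory of endomorphisms of elliptic curves over an algebraically closed
field: "heights" of rational functions.
-/

set_option autoImplicit false

namespace Fermat.Agent.ECFrob

open Polynomial

section Prim

variable {K : Type*} [Field K]

/-- A vector of polynomials is primitive of degree `d`: it has no zero at any point of `K` nor at
infinity (coefficients of degree `d`), and all entries have degree at most `d`. -/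
structure IsPrim {n : ℕ} (v : Fin n → K[X]) (d : ℕ) : Prop where
  eval_ne : ∀ x : K, (fun i => (v i).eval x) ≠ 0
  natDegree_le : ∀ i, (v i).natDegree ≤ d
  coeff_ne : (fun i => (v i).coeff d) ≠ 0

namespace IsPrim

variable {n : ℕ} {v v' : Fin n → K[X]} {d d' : ℕ}

lemma exists_eval_ne (h : IsPrim v d) (x : K) : ∃ i, (v i).eval x ≠ 0 := by
  by_contra hc
  push Not at hc
  exact h.eval_ne x (funext hc)

lemma exists_coeff_ne (h : IsPrim v d) : ∃ i, (v i).coeff d ≠ 0 := by
  by_contra hc
  push Not at hc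
  exact h.coeff_ne (funext hc)

lemma exists_natDegree_eq (h : IsPrim v d) : ∃ i, (v i).natDegree = d ∧ v i ≠ 0 := by
  obtain ⟨i, hi⟩ := h.exists_coeff_ne
  exact ⟨i, le_antisymm (h.natDegree_le i) (le_natDegree_of_ne_zero hi),
    fun h0 => hi (by rw [h0]; simp)⟩

private lemma isUnit_of_no_root [IsAlgClosed K] {a : K[X]} (ha : ∀ x, a.eval x ≠ 0) :
    IsUnit a := by
  by_contra hu
  by_cases h0 : a = 0
  · exact ha 0 (by rw [h0]; simp)
  · obtain ⟨x, hx⟩ := IsAlgClosed.exists_root a (by
      intro hdeg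
      exact hu (Polynomial.isUnit_iff_degree_eq_zero.mpr hdeg))
    exact ha x hx

/-- Proportional primitive vectors differ by a nonzero constant. -/
theorem exists_C_mul [IsAlgClosed K] (h : IsPrim v d) (h' : IsPrim v' d')
    (hprop : ∀ i j, v i * v' j = v j * v' i) : ∃ c : K, c ≠ 0 ∧ ∀ i, v' i = C c * v i := by
  classical
  obtain ⟨i, -, hi0⟩ := h.exists_natDegree_eq
  have hv'i : v' i ≠ 0 := by
    intro h0
    obtain ⟨j, hj⟩ := h'.exists_eval_ne 0
    have := hprop i j
    rw [h0, mul_zero] at this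
    rcases mul_eq_zero.mp this with h1 | h1
    · exact hi0 h1
    · rw [h1] at hj; simp at hj
  -- write v i = g a, v' i = g b
  obtain ⟨a, b, hab, hga, hgb⟩ : ∃ a b : K[X], IsCoprime a b ∧ v i = gcd (v i) (v' i) * a ∧
      v' i = gcd (v i) (v' i) * b := by
    obtain ⟨a, ha⟩ := gcd_dvd_left (v i) (v' i)
    obtain ⟨b, hb⟩ := gcd_dvd_right (v i) (v' i)
    refine ⟨a, b, ?_, ha, hb⟩
    have hg : gcd (v i) (v' i) ≠ 0 := by
      intro h0
      rw [h0, zero_mul] at ha
      exact hi0 ha
    have h1 : gcd (gcd (v i) (v' i) * a) (gcd (v i) (v' i) * b) = normalize (gcd (v i) (v' i)) * gcd a b :=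
      gcd_mul_left _ _ _
    rw [← ha, ← hb, normalize_gcd] at h1
    have h2 : gcd a b = 1 := by
      have := mul_left_cancel₀ hg (a := gcd (v i) (v' i)) (b := 1) (c := gcd a b)
        (by rw [mul_one]; exact h1)
      exact this.symm
    exact (gcd_isUnit_iff a b).mp (by rw [h2]; exact isUnit_one)
  have hg : gcd (v i) (v' i) ≠ 0 := by
    intro h0
    rw [h0, zero_mul] at hga
    exact hi0 hga
  have hrel : ∀ j, a * v' j = v j * b := by
    intro j
    have h1 := hprop i j
    have h2 : gcd (v i) (v' i) * (a * v' j) = gcd (v i) (v' i) * (v j * b) := by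
      calc gcd (v i) (v' i) * (a * v' j) = (gcd (v i) (v' i) * a) * v' j := by ring
        _ = v i * v' j := by rw [← hga]
        _ = v j * v' i := h1
        _ = v j * (gcd (v i) (v' i) * b) := by rw [← hgb]
        _ = _ := by ring
    exact mul_left_cancel₀ hg h2
  obtain ⟨r, s, hrs⟩ := hab
  have hau : IsUnit a := by
    refine isUnit_of_no_root fun x hx => ?_
    obtain ⟨j, hj⟩ := h.exists_eval_ne x
    have h1 := congrArg (Polynomial.eval x) (hrel j)
    rw [eval_mul, eval_mul, hx, zero_mul] at h1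
    have h2 : b.eval x = 0 := by
      rcases mul_eq_zero.mp h1.symm with h3 | h3
      · exact absurd h3 hj
      · exact h3
    have h3 := congrArg (Polynomial.eval x) hrs
    rw [eval_add, eval_mul, eval_mul, hx, h2, mul_zero, mul_zero, add_zero, eval_one] at h3
    exact zero_ne_one h3
  have hbu : IsUnit b := by
    refine isUnit_of_no_root fun x hx => ?_
    obtain ⟨j, hj⟩ := h'.exists_eval_ne x
    have h1 := congrArg (Polynomial.eval x) (hrel j)
    rw [eval_mul, eval_mul, hx, mul_zero] at h1
    have h2 : a.eval x = 0 := by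
      rcases mul_eq_zero.mp h1 with h3 | h3
      · exact h3
      · exact absurd h3 hj
    have h3 := congrArg (Polynomial.eval x) hrs
    rw [eval_add, eval_mul, eval_mul, hx, h2, mul_zero, mul_zero, add_zero, eval_one] at h3
    exact zero_ne_one h3
  obtain ⟨a0, ha0, rfl⟩ := Polynomial.isUnit_iff.mp hau
  obtain ⟨b0, hb0, rfl⟩ := Polynomial.isUnit_iff.mp hbu
  refine ⟨b0 / a0, div_ne_zero hb0.ne_zero ha0.ne_zero, fun j => ?_⟩
  have h1 := hrel j
  have h2 : C a0 * v' j = C a0 * (C (b0 / a0) * v j) := by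
    rw [h1, ← mul_assoc, ← C_mul, mul_div_cancel₀ _ ha0.ne_zero, mul_comm]
  exact mul_left_cancel₀ (by rw [Ne, C_eq_zero]; exact ha0.ne_zero) h2

theorem degree_unique [IsAlgClosed K] (h : IsPrim v d) (h' : IsPrim v' d')
    (hprop : ∀ i j, v i * v' j = v j * v' i) : d = d' := by
  obtain ⟨c, hc, hv⟩ := exists_C_mul h h' hprop
  have hdeg : ∀ i, (v' i).natDegree = (v i).natDegree := fun i => by
    rw [hv i, natDegree_C_mul hc]
  obtain ⟨i, hi, -⟩ := h.exists_natDegree_eq
  obtain ⟨j, hj, -⟩ := h'.exists_natDegree_eq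
  apply le_antisymm
  · rw [← hi, ← hdeg]; exact h'.natDegree_le i
  · rw [← hj, hdeg]; exact h.natDegree_le j

end IsPrim

/-- The symmetric square of two 2-vectors. -/
def symv {R : Type*} [CommRing R] (a b : Fin 2 → R) : Fin 3 → R :=
  ![a 0 * b 0, a 0 * b 1 + a 1 * b 0, a 1 * b 1]

lemma symv_ne_zero {a b : Fin 2 → K} (ha : a ≠ 0) (hb : b ≠ 0) : symv a b ≠ 0 := by
  intro h
  have h0 : a 0 * b 0 = 0 := congrFun h 0
  have h1 : a 0 * b 1 + a 1 * b 0 = 0 := congrFun h 1
  have h2 : a 1 * b 1 = 0 := congrFun h 2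
  have ha' : a 0 ≠ 0 ∨ a 1 ≠ 0 := by
    by_contra hc
    push Not at hc
    exact ha (by ext i; fin_cases i; exacts [hc.1, hc.2])
  have hb' : b 0 ≠ 0 ∨ b 1 ≠ 0 := by
    by_contra hc
    push Not at hc
    exact hb (by ext i; fin_cases i; exacts [hc.1, hc.2])
  rcases ha' with ha' | ha' <;> rcases hb' with hb' | hb'
  · exact mul_ne_zero ha' hb' h0
  · have hb0 : b 0 = 0 := (mul_eq_zero.mp h0).resolve_left ha'
    rw [hb0, mul_zero, add_zero] at h1
    exact mul_ne_zero ha' hb' h1
  · have ha0 : a 0 = 0 := (mul_eq_zero.mp h0).resolve_right hb'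
    rw [ha0, zero_mul, zero_add] at h1
    exact mul_ne_zero ha' hb' h1
  · exact mul_ne_zero ha' hb' h2

/-- The addition-subtraction map on coordinate vectors (explicit form of Mathlib's
`WeierstrassCurve.addSubMap`). -/
def asub {R : Type*} [CommRing R] (b₂ b₄ b₆ b₈ : R) (v : Fin 3 → R) : Fin 3 → R :=
  ![v 0 ^ 2 - b₄ * v 0 * v 2 - b₆ * v 1 * v 2 - b₈ * v 2 ^ 2,
    2 * v 1 * v 0 + b₂ * v 0 * v 2 + b₄ * v 1 * v 2 + b₆ * v 2 ^ 2,
    v 1 ^ 2 - 4 * v 0 * v 2]

lemma asub_eq (W : WeierstrassCurve K) (v : Fin 3 → K) :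
    asub W.b₂ W.b₄ W.b₆ W.b₈ v = fun i => (W.addSubMap i).eval v := by
  ext i
  fin_cases i <;> simp [asub, WeierstrassCurve.addSubMap]

lemma asub_ne_zero (W : WeierstrassCurve K) [W.IsElliptic] {v : Fin 3 → K} (hv : v ≠ 0) :
    asub W.b₂ W.b₄ W.b₆ W.b₈ v ≠ 0 := by
  rw [asub_eq]
  exact WeierstrassCurve.addSubMap_ne_zero W hv

lemma coeff_mul_of_le {f g : K[X]} {d e : ℕ} (hf : f.natDegree ≤ d) (hg : g.natDegree ≤ e) :
    (f * g).coeff (d + e) = f.coeff d * g.coeff e :=
  Polynomial.coeff_mul_add_eq_of_natDegree_le hf hg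

theorem IsPrim.symv {v w : Fin 2 → K[X]} {d e : ℕ} (hv : IsPrim v d) (hw : IsPrim w e) :
    IsPrim (symv v w) (d + e) where
  eval_ne x := by
    have h := symv_ne_zero (hv.eval_ne x) (hw.eval_ne x)
    intro h0
    apply h
    ext i
    have := congrFun h0 i
    fin_cases i <;> simpa [ECFrob.symv] using this
  natDegree_le i := by
    have key : ∀ a b : Fin 2, (v a * w b).natDegree ≤ d + e := fun a b =>
      natDegree_mul_le_of_le (hv.natDegree_le a) (hw.natDegree_le b)
    fin_cases i
    · exact key 0 0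
    · exact natDegree_add_le_of_degree_le (key 0 1) (key 1 0)
    · exact key 1 1
  coeff_ne := by
    have h := symv_ne_zero hv.coeff_ne hw.coeff_ne
    intro h0
    apply h
    have key : ∀ a b : Fin 2, (v a * w b).coeff (d + e) = (v a).coeff d * (w b).coeff e :=
      fun a b => coeff_mul_of_le (hv.natDegree_le a) (hw.natDegree_le b)
    ext i
    have := congrFun h0 i
    fin_cases i
    · simpa [ECFrob.symv, key] using this
    · simpa [ECFrob.symv, key] using this
    · simpa [ECFrob.symv, key] using this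

theorem IsPrim.asub (W : WeierstrassCurve K) [W.IsElliptic] {v : Fin 3 → K[X]} {d : ℕ}
    (hv : IsPrim v d) : IsPrim (asub (C W.b₂) (C W.b₄) (C W.b₆) (C W.b₈) v) (d + d) where
  eval_ne x := by
    have h := asub_ne_zero W (hv.eval_ne x)
    intro h0
    apply h
    ext i
    have := congrFun h0 i
    fin_cases i <;> simpa [ECFrob.asub] using this
  natDegree_le i := by
    have key : ∀ a b : Fin 3, (v a * v b).natDegree ≤ d + d := fun a b =>
      natDegree_mul_le_of_le (hv.natDegree_le a) (hv.natDegree_le b)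
    have keyC : ∀ (c : K) (a b : Fin 3), (C c * v a * v b).natDegree ≤ d + d := fun c a b => by
      rw [mul_assoc]
      exact (natDegree_C_mul_le _ _).trans (key a b)
    have keysq : ∀ a : Fin 3, (v a ^ 2).natDegree ≤ d + d := fun a => by rw [sq]; exact key a a
    have keyCsq : ∀ (c : K) (a : Fin 3), (C c * v a ^ 2).natDegree ≤ d + d := fun c a =>
      (natDegree_C_mul_le _ _).trans (keysq a)
    have key2 : (2 * v 1 * v 0).natDegree ≤ d + d := by
      have := keyC 2 1 0
      rwa [C_ofNat] at this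
    have key4 : (4 * v 0 * v 2).natDegree ≤ d + d := by
      have := keyC 4 0 2
      rwa [C_ofNat] at this
    fin_cases i
    · exact (natDegree_sub_le_of_le (natDegree_sub_le_of_le (natDegree_sub_le_of_le (keysq 0)
        (keyC _ 0 2)) (keyC _ 1 2)) (keyCsq _ 2)).trans (by simp)
    · exact (natDegree_add_le_of_le (natDegree_add_le_of_le (natDegree_add_le_of_le key2
        (keyC _ 0 2)) (keyC _ 1 2)) (keyCsq _ 2)).trans (by simp)
    · exact (natDegree_sub_le_of_le (keysq 1) key4).trans (by simp)
  coeff_ne := by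
    have h := asub_ne_zero W hv.coeff_ne
    intro h0
    apply h
    have key : ∀ a b : Fin 3, (v a * v b).coeff (d + d) = (v a).coeff d * (v b).coeff d :=
      fun a b => coeff_mul_of_le (hv.natDegree_le a) (hv.natDegree_le b)
    have keyC : ∀ (c : K) (a b : Fin 3), (C c * v a * v b).coeff (d + d) =
        c * (v a).coeff d * (v b).coeff d := fun c a b => by
      rw [mul_assoc, coeff_C_mul, key, mul_assoc]
    have keysq : ∀ a : Fin 3, (v a ^ 2).coeff (d + d) = (v a).coeff d ^ 2 := fun a => by
      rw [sq, key, sq]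
    have keyCsq : ∀ (c : K) (a : Fin 3), (C c * v a ^ 2).coeff (d + d) = c * (v a).coeff d ^ 2 :=
      fun c a => by rw [coeff_C_mul, keysq]
    have key2 : (2 * v 1 * v 0).coeff (d + d) = 2 * (v 1).coeff d * (v 0).coeff d := by
      have := keyC 2 1 0
      rwa [C_ofNat] at this
    have key4 : (4 * v 0 * v 2).coeff (d + d) = 4 * (v 0).coeff d * (v 2).coeff d := by
      have := keyC 4 0 2
      rwa [C_ofNat] at this
    ext i
    have := congrFun h0 i
    fin_cases i
    · simpa [ECFrob.asub, keyC, keysq, keyCsq] using this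
    · simpa [ECFrob.asub, keyC, keysq, keyCsq, key2] using this
    · simpa [ECFrob.asub, keyC, keysq, keyCsq, key4] using this

/-- A coprime pair is primitive. -/
lemma isPrim_of_isCoprime {u w : K[X]} (h : IsCoprime u w) :
    IsPrim ![u, w] (max u.natDegree w.natDegree) where
  eval_ne x := by
    intro h0
    have hu : u.eval x = 0 := congrFun h0 0
    have hw : w.eval x = 0 := congrFun h0 1
    obtain ⟨r, s, hrs⟩ := h
    have := congrArg (Polynomial.eval x) hrs
    rw [eval_add, eval_mul, eval_mul, hu, hw, mul_zero, mul_zero, add_zero, eval_one] at this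
    exact zero_ne_one this
  natDegree_le i := by
    fin_cases i
    · exact le_max_left _ _
    · exact le_max_right _ _
  coeff_ne := by
    intro h0
    have hu : u.coeff (max u.natDegree w.natDegree) = 0 := congrFun h0 0
    have hw : w.coeff (max u.natDegree w.natDegree) = 0 := congrFun h0 1
    have hne : u ≠ 0 ∨ w ≠ 0 := by
      by_contra hc
      push Not at hc
      rw [hc.1, hc.2] at h
      exact not_isCoprime_zero_zero h
    rcases le_total u.natDegree w.natDegree with hle | hle
    · rw [max_eq_right hle] at hu hw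
      have hw0 : w = 0 := leadingCoeff_eq_zero.mp hw
      have hu0 : u ≠ 0 := hne.resolve_right (by simpa using hw0)
      rw [hw0, natDegree_zero, Nat.le_zero] at hle
      rw [hw0, natDegree_zero] at hu
      apply hu0
      apply leadingCoeff_eq_zero.mp
      rw [leadingCoeff, hle]; exact hu
    · rw [max_eq_left hle] at hu hw
      have hu0 : u = 0 := leadingCoeff_eq_zero.mp hu
      have hw0 : w ≠ 0 := hne.resolve_left (by simpa using hu0)
      rw [hu0, natDegree_zero, Nat.le_zero] at hle
      rw [hu0, natDegree_zero] at hw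
      apply hw0
      apply leadingCoeff_eq_zero.mp
      rw [leadingCoeff, hle]; exact hw

/-- The `q`-power of a primitive vector. -/
lemma IsPrim.pow {n : ℕ} {v : Fin n → K[X]} {d : ℕ} (hv : IsPrim v d) {q : ℕ} (hq : q ≠ 0) :
    IsPrim (fun i => v i ^ q) (q * d) where
  eval_ne x := by
    obtain ⟨i, hi⟩ := hv.exists_eval_ne x
    intro h0
    have := congrFun h0 i
    simp only [eval_pow, Pi.zero_apply] at this
    exact hi ((pow_eq_zero_iff hq).mp this)
  natDegree_le i := natDegree_pow_le.trans (Nat.mul_le_mul_left _ (hv.natDegree_le i))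
  coeff_ne := by
    obtain ⟨i, hi⟩ := hv.exists_coeff_ne
    intro h0
    have := congrFun h0 i
    simp only [Pi.zero_apply] at this
    rw [coeff_pow_of_natDegree_le (hv.natDegree_le i)] at this
    exact hi ((pow_eq_zero_iff hq).mp this)

end Prim

end Fermat.Agent.ECFrob
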